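import Mathlib

/-!
# S15 / DESC — the Hecke projector on a finite torsion level, abstract form (helper466)

`η i` a commuting family of endomorphisms of an abelian group `J`, `X ≤ J` a FINITE subgroup stable
under all `η i`.  Then there is a (non-commutative) polynomial `e` in the `η i` — any property `P`
of endomorphisms which holds for `1`, the `η i` and is stable under `*` and `-` holds for `e` —
such that on `X`:

* `e x = x`              if `x` is killed by a power of every `η i`,
* `e x` is killed by a power of every `η i`, and `e x ∈ X`.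

(`e = ∏ (1 - η_i ^ L)` over finitely many witness indices, `L = |X|!`; no idempotent lifting, no
Noetherian hypothesis: only the pigeonhole principle on the orbits `η^k x`.)
-/

set_option autoImplicit false
set_option linter.style.haveILetI false

namespace Fermat.Agent.S15.H466

section Period

variable {J : Type*} [AddCommGroup J]

theorem pow_apply_mem_h466 (X : AddSubgroup J) (η : Module.End ℤ J) (hX : ∀ x ∈ X, η x ∈ X)
    (x : J) (hx : x ∈ X) (k : ℕ) : (η ^ k) x ∈ X := by
  induction k with
  | zero => simpa using hx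
  | succ k ih =>
    rw [pow_succ', Module.End.mul_apply]
    exact hX _ ih

/-- **Periodicity.**  On a finite stable subgroup `X` with `c = |X|`:
`η^(n + c!) x = η^n x` for `n ≥ c`. -/
theorem pow_add_factorial_apply_h466 (X : AddSubgroup J) [Finite X] (η : Module.End ℤ J)
    (hX : ∀ x ∈ X, η x ∈ X) (x : J) (hx : x ∈ X) (n : ℕ) (hn : Nat.card X ≤ n) :
    (η ^ (n + (Nat.card X).factorial)) x = (η ^ n) x := by
  classical
  letI : Fintype X := Fintype.ofFinite X
  set c : ℕ := Nat.card X with hc
  -- pigeonhole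
  let g : Fin (c + 1) → X := fun k => ⟨(η ^ (k : ℕ)) x, pow_apply_mem_h466 X η hX x hx k⟩
  have hcard : Fintype.card X < Fintype.card (Fin (c + 1)) := by
    rw [Fintype.card_fin, ← Nat.card_eq_fintype_card]
    exact Nat.lt_succ_self _
  obtain ⟨i, j, hij, hg⟩ := Fintype.exists_ne_map_eq_of_card_lt g hcard
  have hg' : (η ^ (i : ℕ)) x = (η ^ (j : ℕ)) x := congrArg Subtype.val hg
  -- wlog `i < j`
  have key : ∀ a b : ℕ, a < b → b ≤ c → (η ^ a) x = (η ^ b) x →
      (η ^ (n + c.factorial)) x = (η ^ n) x := by
    intro a b hab hbc hab'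
    have hd : 0 < b - a := Nat.sub_pos_of_lt hab
    have hdc : b - a ≤ c := (Nat.sub_le _ _).trans hbc
    have hstep : ∀ m, a ≤ m → (η ^ (m + (b - a))) x = (η ^ m) x := by
      intro m hm
      obtain ⟨s, rfl⟩ := Nat.exists_eq_add_of_le hm
      have e1 : a + s + (b - a) = s + b := by omega
      have e2 : a + s = s + a := by omega
      rw [e1, e2, pow_add, pow_add, Module.End.mul_apply, Module.End.mul_apply, hab']
    have hiter : ∀ t m, a ≤ m → (η ^ (m + t * (b - a))) x = (η ^ m) x := by
      intro t
      induction t with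
      | zero => intro m _; simp
      | succ t ih =>
        intro m hm
        have e1 : m + (t + 1) * (b - a) = (m + t * (b - a)) + (b - a) := by ring
        rw [e1, hstep _ (le_trans hm (Nat.le_add_right _ _)), ih m hm]
    obtain ⟨t, ht⟩ := Nat.dvd_factorial hd hdc
    have hna : a ≤ n := le_trans (le_trans hab.le hbc) hn
    rw [ht, mul_comm]
    exact hiter t n hna
  rcases lt_or_gt_of_ne (fun h => hij (Fin.ext h)) with h | h
  · exact key i j h (Nat.lt_succ_iff.1 j.2) hg'
  · exact key j i h (Nat.lt_succ_iff.1 i.2) hg'.symm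

/-- If some power of `η` kills `x ∈ X`, then `η ^ (|X|!)` kills `x`. -/
theorem pow_factorial_apply_eq_zero_h466 (X : AddSubgroup J) [Finite X] (η : Module.End ℤ J)
    (hX : ∀ x ∈ X, η x ∈ X) (x : J) (hx : x ∈ X) (n : ℕ) (h : (η ^ n) x = 0) :
    (η ^ (Nat.card X).factorial) x = 0 := by
  set c : ℕ := Nat.card X with hc
  have hL : 0 < c.factorial := Nat.factorial_pos c
  have hper : ∀ t, (η ^ (c + t * c.factorial)) x = (η ^ c) x := by
    intro t
    induction t with
    | zero => simp
    | succ t ih =>
      have e1 : c + (t + 1) * c.factorial = (c + t * c.factorial) + c.factorial := by ring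
      rw [e1, pow_add_factorial_apply_h466 X η hX x hx _ (Nat.le_add_right _ _), ih]
  have hbig : n ≤ c + n * c.factorial := by
    have : n * 1 ≤ n * c.factorial := Nat.mul_le_mul_left n hL
    omega
  have hc0 : (η ^ c) x = 0 := by
    rw [← hper n]
    obtain ⟨s, hs⟩ := Nat.exists_eq_add_of_le hbig
    rw [hs, add_comm n s, pow_add, Module.End.mul_apply, h, map_zero]
  obtain ⟨s, hs⟩ := Nat.exists_eq_add_of_le (Nat.self_le_factorial c)
  rw [hs, add_comm c s, pow_add, Module.End.mul_apply, hc0, map_zero]

end Period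

section Projector

variable {J : Type*} [AddCommGroup J] {ι : Type*}

/-- **The projector onto the part of `X` killed by powers of all `η i`.** -/
theorem exists_projector_h466 (η : ι → Module.End ℤ J) (hcomm : ∀ i j, Commute (η i) (η j))
    (X : AddSubgroup J) [Finite X] (hX : ∀ i, ∀ x ∈ X, η i x ∈ X)
    (P : Module.End ℤ J → Prop) (hP1 : P 1) (hPη : ∀ i, P (η i))
    (hPmul : ∀ a b, P a → P b → P (a * b)) (hPsub : ∀ a b, P a → P b → P (a - b)) :
    ∃ e : Module.End ℤ J, P e ∧
      (∀ x ∈ X, (∀ i, ∃ n : ℕ, (η i ^ n) x = 0) → e x = x) ∧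
      (∀ x ∈ X, e x ∈ X ∧ ∀ i, ∃ n : ℕ, (η i ^ n) (e x) = 0) := by
  classical
  set L : ℕ := (Nat.card X).factorial with hL
  let f : ι → Module.End ℤ J := fun i => 1 - η i ^ L
  have hPpow : ∀ i (n : ℕ), P (η i ^ n) := by
    intro i n
    induction n with
    | zero => simpa using hP1
    | succ n ih =>
      rw [pow_succ]
      exact hPmul _ _ ih (hPη i)
  have hPf : ∀ i, P (f i) := fun i => hPsub _ _ hP1 (hPpow i L)
  have hfX : ∀ i, ∀ x ∈ X, f i x ∈ X := by
    intro i x hx
    show (1 - η i ^ L) x ∈ X
    rw [LinearMap.sub_apply, Module.End.one_apply]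
    exact X.sub_mem hx (pow_apply_mem_h466 X (η i) (hX i) x hx L)
  have hfcomm : ∀ i j (n : ℕ), Commute (η i ^ n) (f j) := by
    intro i j n
    exact ((Commute.one_right _).sub_right ((hcomm i j).pow_pow n L))
  -- the product over a list of indices
  let E : List ι → Module.End ℤ J := fun l => (l.map f).prod
  have hE_nil : E [] = 1 := rfl
  have hE_cons : ∀ i l, E (i :: l) = f i * E l := fun i l => by
    show ((i :: l).map f).prod = f i * (l.map f).prod
    rw [List.map_cons, List.prod_cons]
  have hEP : ∀ l, P (E l) := by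
    intro l
    induction l with
    | nil => rw [hE_nil]; exact hP1
    | cons i l ih => rw [hE_cons]; exact hPmul _ _ (hPf i) ih
  have hEX : ∀ l, ∀ x ∈ X, E l x ∈ X := by
    intro l
    induction l with
    | nil => intro x hx; rw [hE_nil]; simpa using hx
    | cons i l ih =>
      intro x hx
      rw [hE_cons, Module.End.mul_apply]
      exact hfX i _ (ih x hx)
  have hEfix : ∀ l, ∀ x ∈ X, (∀ i, ∃ n : ℕ, (η i ^ n) x = 0) → E l x = x := by
    intro l
    induction l with
    | nil => intro x _ _; rw [hE_nil]; rfl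
    | cons i l ih =>
      intro x hx hnil
      rw [hE_cons, Module.End.mul_apply, ih x hx hnil]
      show (1 - η i ^ L) x = x
      obtain ⟨n, hn⟩ := hnil i
      rw [LinearMap.sub_apply, Module.End.one_apply,
        pow_factorial_apply_eq_zero_h466 X (η i) (hX i) x hx n hn, sub_zero]
  have hEkill : ∀ l, ∀ x ∈ X, ∀ i ∈ l, ∃ n : ℕ, (η i ^ n) (E l x) = 0 := by
    intro l
    induction l with
    | nil => intro x _ i hi; simp at hi
    | cons j l ih =>
      intro x hx i hi
      rw [hE_cons, Module.End.mul_apply]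
      rcases List.mem_cons.1 hi with rfl | hi'
      · refine ⟨Nat.card X, ?_⟩
        have hy : E l x ∈ X := hEX l x hx
        generalize E l x = y at hy
        have h1 : f i y = y - (η i ^ L) y := by
          show (1 - η i ^ L) y = y - (η i ^ L) y
          rw [LinearMap.sub_apply, Module.End.one_apply]
        have h2 : (η i ^ Nat.card X) ((η i ^ L) y) = (η i ^ (Nat.card X + L)) y := by
          rw [pow_add, Module.End.mul_apply]
        rw [h1, map_sub, h2, pow_add_factorial_apply_h466 X (η i) (hX i) y hy _ le_rfl, sub_self]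
      · obtain ⟨n, hn⟩ := ih x hx i hi'
        refine ⟨n, ?_⟩
        have hc : η i ^ n * f j = f j * η i ^ n := (hfcomm i j n).eq
        have h1 : (η i ^ n) (f j (E l x)) = (η i ^ n * f j) (E l x) := rfl
        have h2 : (f j * η i ^ n) (E l x) = f j ((η i ^ n) (E l x)) := rfl
        rw [h1, hc, h2, hn, map_zero]
  -- the witnesses
  letI : Fintype X := Fintype.ofFinite X
  have hw : ∀ x : X, ∃ i : Option ι,
      (i = none → ∀ i', ∃ n : ℕ, (η i' ^ n) (x : J) = 0) ∧
      ∀ j, i = some j → ∀ n : ℕ, (η j ^ n) (x : J) ≠ 0 := by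
    intro x
    by_cases h : ∀ i', ∃ n : ℕ, (η i' ^ n) (x : J) = 0
    · refine ⟨none, fun _ => h, fun j hj => ?_⟩
      cases hj
    · obtain ⟨j, hj⟩ := not_forall.1 h
      refine ⟨some j, fun hn => ?_, fun j' hj' n hn => ?_⟩
      · cases hn
      · cases hj'
        exact hj ⟨n, hn⟩
  choose w hwnone hwsome using hw
  let l : List ι := (Finset.univ : Finset X).toList.filterMap w
  refine ⟨E l, hEP l, hEfix l, fun x hx => ⟨hEX l x hx, ?_⟩⟩
  by_contra hbad
  have hy : E l x ∈ X := hEX l x hx
  rcases hwy : w ⟨E l x, hy⟩ with _ | j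
  · exact hbad (hwnone ⟨E l x, hy⟩ hwy)
  · have hjl : j ∈ l := by
      rw [List.mem_filterMap]
      exact ⟨⟨E l x, hy⟩, Finset.mem_toList.2 (Finset.mem_univ _), hwy⟩
    obtain ⟨n, hn⟩ := hEkill l x hx j hjl
    exact hwsome ⟨E l x, hy⟩ j hwy n hn

end Projector

end Fermat.Agent.S15.H466
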