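import Fermat.Agent.S15.H466.ProjInst
import Fermat.Agent.S15.H808.Fin
import Fermat.Agent.S29.H571.HeckeGalois
import Fermat.Agent.S29.M1

/-!
# Row S15, node DESC: PROJ and HECKE-GAL, unconditional (helper466)

* `heckeGalStatement : HeckeGalStatement`  — the Hecke operators on `J₀(p)(ℚ̄)` commute with the
  Galois action (`S29.H571.heckeOperatorBar_smul`);
* `projStatement : ProjStatement`          — the Eisenstein projector at every level `r^k`
  (`projStatement_of` + `H808.finStatement` + `S29.heckeOperatorsCommuteBar`);
* `descCoreTarget_route208_final`          — the descent core on route 208 with PROJ, HECKE-GAL,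
  FIN discharged.
-/

set_option autoImplicit false

namespace Fermat.Agent.S15.H466

open ModularCurve Fermat.Agent.S15.H975

/-- **HECKE-GAL**, unconditional. -/
theorem heckeGalStatement : HeckeGalStatement :=
  fun p _ ℓ σ x => Fermat.Agent.S29.H571.heckeOperatorBar_smul p ℓ σ x

/-- The Hecke operators commute, at every level. -/
theorem heckeCommAll_h466 : ∀ (p : ℕ) [NeZero p], HeckeOperatorsCommuteBar p :=
  fun p _ => Fermat.Agent.S29.heckeOperatorsCommuteBar p

/-- **PROJ**, unconditional. -/
theorem projStatement : ProjStatement :=
  projStatement_of Fermat.Agent.S15.H808.finStatement heckeGalStatement heckeCommAll_h466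

/-- **The descent core on route 208**, with PROJ, HECKE-GAL and FIN discharged. -/
theorem descCoreTarget_route208_final (hA : Alg0Statement) (hDiv : DivStatement)
    (hRtf : RtfStatement) (hFlag : FlagStatement) (hLoc : Local208Statement)
    (hT6 : T6ppAllStatement)
    (p : ℕ) [NeZero p] (hp : p.Prime) (S : Finset ℕ) (r : ℕ) (hr : r.Prime) (hrp : r ∣ p - 1) :
    DescCoreTarget p (S : Set ℕ) r :=
  descCoreTarget_route208' hA hDiv Fermat.Agent.S15.H808.finStatement hRtf hFlag hLoc hT6
    heckeGalStatement heckeCommAll_h466 p hp S r hr hrp

end Fermat.Agent.S15.H466
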