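import Fermat.Agent.S15.H466.SelAsm
import Fermat.Agent.S15.H466.ProjAbs

/-!
# S15 / DESC — PROJ for `J₀(p)` (helper466)

`projStatement_of : FinStatement → HeckeGalStatement → (∀ p, HeckeOperatorsCommuteBar p) →
ProjStatement` : the Hecke projector onto the Eisenstein part of `J₀(p)[r^k]`
(instance of `exists_projector_h466` for `η_ℓ = T_ℓ - (1 + ℓ)`, `X = J₀(p)[r^k]`).
The three inputs are on main (`S30.H810.torsion_finite`, `S29.H571`, `S29.heckeOperatorsCommuteBar`).

`descCoreTarget_route208'` : the top of route 208 with `ProjStatement` discharged.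
-/

set_option autoImplicit false
set_option linter.unusedSectionVars false

noncomputable section

namespace Fermat.Agent.S15.H466

open ModularCurve Fermat.Agent.S15.H975

section Inst

variable (p : ℕ) [NeZero p]

theorem eta_comm_h466 (hcomm : HeckeOperatorsCommuteBar p) (ℓ ℓ' : Nat.Primes) :
    Commute (eta p ℓ) (eta p ℓ') := by
  unfold eta
  have h1 : Commute (heckeOperatorBar p ℓ) (heckeOperatorBar p ℓ') := hcomm ℓ ℓ'
  have h2 : ∀ (a : Module.End ℤ (JZero p)) (n : ℤ),
      Commute a (n • (1 : Module.End ℤ (JZero p))) := fun a n => by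
    show a * (n • (1 : Module.End ℤ (JZero p))) = (n • (1 : Module.End ℤ (JZero p))) * a
    rw [mul_smul_comm, smul_mul_assoc, mul_one, one_mul]
  have h3 : ∀ (a : Module.End ℤ (JZero p)) (n : ℤ),
      Commute (n • (1 : Module.End ℤ (JZero p))) a := fun a n => (h2 a n).symm
  exact (h1.sub_right (h2 _ _)).sub_left ((h3 _ _).sub_right (h2 _ _))

/-- Galois-equivariance as a property of endomorphisms. -/
def IsGalEquiv_h466 (a : Module.End ℤ (JZero p)) : Prop :=
  ∀ (σ : Gal) (x : JZero p), a (σ • x) = σ • a x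

theorem projStatement_at (hFinp : ∀ n : ℕ, 0 < n → Finite ↥(tors p n))
    (hTG : ∀ (ℓ : Nat.Primes) (σ : Gal) (x : JZero p),
      heckeOperatorBar p ℓ (σ • x) = σ • heckeOperatorBar p ℓ x)
    (hcomm : HeckeOperatorsCommuteBar p) (S : Set ℕ) (r : ℕ) (hr : 0 < r) (k : ℕ) :
    ∃ e : JZero p →+ JZero p, (∀ (σ : Gal) (x : JZero p), e (σ • x) = σ • e x) ∧
      (∀ x ∈ eisInf p S r, r ^ k • x = 0 → e x = x) ∧
      (∀ x : JZero p, r ^ k • x = 0 → e x ∈ eisInf p S r) := by
  classical
  have : Finite ↥(tors p (r ^ k)) := hFinp (r ^ k) (pow_pos hr k)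
  let ι : Type := {ℓ : Nat.Primes // (ℓ : ℕ) ≠ p ∧ (ℓ : ℕ) ∉ S}
  let η : ι → Module.End ℤ (JZero p) := fun i => eta p i.1
  have hX : ∀ i : ι, ∀ x ∈ tors p (r ^ k), η i x ∈ tors p (r ^ k) := by
    intro i x hx
    show r ^ k • (η i x) = 0
    rw [← map_nsmul, show r ^ k • x = 0 from hx, map_zero]
  have hPη : ∀ i : ι, IsGalEquiv_h466 p (η i) := by
    intro i σ z
    show eta p i.1 (σ • z) = σ • eta p i.1 z
    unfold eta
    simp only [LinearMap.sub_apply, LinearMap.smul_apply, Module.End.one_apply]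
    rw [hTG, gal_smul_sub_h466, gal_smul_zsmul_h466]
  obtain ⟨e, hPe, hfix, hkill⟩ := exists_projector_h466 η
    (fun i j => eta_comm_h466 p hcomm i.1 j.1) (tors p (r ^ k)) hX (IsGalEquiv_h466 p)
    (fun σ x => rfl) hPη
    (fun a b ha hb σ x => by
      show a (b (σ • x)) = σ • a (b x)
      rw [hb, ha])
    (fun a b ha hb σ x => by
      show a (σ • x) - b (σ • x) = σ • (a x - b x)
      rw [ha, hb, gal_smul_sub_h466])
  refine ⟨e.toAddMonoidHom, fun σ x => hPe σ x, fun x hx hxk => ?_, fun x hxk => ?_⟩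
  · exact hfix x hxk fun i => hx.2 i.1 i.2.1 i.2.2
  · obtain ⟨h1, h2⟩ := hkill x hxk
    exact ⟨⟨k, h1⟩, fun ℓ hℓp hℓS => h2 ⟨ℓ, hℓp, hℓS⟩⟩

end Inst

/-- **PROJ** from finiteness of torsion, Galois-equivariance and commutativity of the Hecke
operators. -/
theorem projStatement_of (hFin : FinStatement) (hTG : HeckeGalStatement)
    (hcomm : ∀ (p : ℕ) [NeZero p], HeckeOperatorsCommuteBar p) : ProjStatement :=
  fun p _ _ S r hr k =>
    projStatement_at p (fun n hn => hFin p n hn) (hTG p) (hcomm p) (S : Set ℕ) r hr.pos k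

/-- **The descent core on route 208**, with PROJ discharged. -/
theorem descCoreTarget_route208' (hA : Alg0Statement) (hDiv : DivStatement) (hFin : FinStatement)
    (hRtf : RtfStatement) (hFlag : FlagStatement) (hLoc : Local208Statement)
    (hT6 : T6ppAllStatement) (hTG : HeckeGalStatement)
    (hcomm : ∀ (p : ℕ) [NeZero p], HeckeOperatorsCommuteBar p)
    (p : ℕ) [NeZero p] (hp : p.Prime) (S : Finset ℕ) (r : ℕ) (hr : r.Prime) (hrp : r ∣ p - 1) :
    DescCoreTarget p (S : Set ℕ) r :=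
  descCoreTarget_route208 hA hDiv hFin hRtf hFlag hLoc hT6 hTG
    (projStatement_of hFin hTG hcomm) p hp S r hr hrp

end Fermat.Agent.S15.H466
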