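import Mathlib
import Fermat.Agent.S15.H842.Engine
import Fermat.Agent.S15.H208.CountInst

/-!
# S15 / DESC — the consumer of route 208 (helper466): SEL-BOUND from the self-improving count

Abstract form (Mathlib + `H842.Engine` + `H208.CountInst` only).

`Γ` acts on `J`; `F 0 = ⊥ ≤ F 1 ≤ … ≤ F D = W` a flag of `Γ`-stable subgroups with all indices a
prime `r`; `K, U ≤ W`.  Put `A = cocSub Γ ⊥ = J^Γ`, `Y = cocSub Γ W`,
`jmp F X i = [F (i+1) ⊓ X ≰ F i]` (`= 1` iff the flag of `X` jumps at `i`).  If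

* (STEP)  `|Sel_i| ≠ 0` and `|Sel_i| * r ^ (1 - jmp F K i) ≤ r ^ (jmp F U i) * |P_i^Γ|`,
* (COUNT) `|K|² ≤ |W|`,
* (CNT)   `|U|² ≤ [Y : A]`   (as soon as this index is finite),

then `[Y : A + W]` is finite and `≤ |W ∩ A|`   (`selBound_abs`).

No bound `|K| |U| ≤ |W|` is needed: this is helper208's self-improving count
(`coord/S15-LOCp-helper208.md`), with the exact ENGINE formula of helper842.
-/

set_option autoImplicit false

namespace Fermat.Agent.S15.H466

open Fermat.Agent.S15.H842.Engine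
open scoped BigOperators

section Chain

variable {J : Type*} [AddCommGroup J]

/-- `1` if the induced flag `F i ⊓ X` jumps at `i`, else `0`. -/
noncomputable def jmp (F : ℕ → AddSubgroup J) (X : AddSubgroup J) (i : ℕ) : ℕ := by
  classical
  exact if F (i + 1) ⊓ X ≤ F i then 0 else 1

theorem jmp_le_one (F : ℕ → AddSubgroup J) (X : AddSubgroup J) (i : ℕ) : jmp F X i ≤ 1 := by
  classical
  unfold jmp
  split_ifs <;> omega

theorem jmp_eq_zero {F : ℕ → AddSubgroup J} {X : AddSubgroup J} {i : ℕ}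
    (h : F (i + 1) ⊓ X ≤ F i) : jmp F X i = 0 := by
  classical
  unfold jmp
  rw [if_pos h]

theorem jmp_eq_one {F : ℕ → AddSubgroup J} {X : AddSubgroup J} {i : ℕ}
    (h : ¬ F (i + 1) ⊓ X ≤ F i) : jmp F X i = 1 := by
  classical
  unfold jmp
  rw [if_neg h]

/-- In a commutative group the relative index is monotone for divisibility in the right
argument. -/
theorem relIndex_dvd_of_le_right_h466 (H L L' : AddSubgroup J) (hL : L ≤ L') :
    H.relIndex L ∣ H.relIndex L' := by
  have h1 : (H ⊓ L').relIndex ((H ⊓ L') ⊔ L) * ((H ⊓ L') ⊔ L).relIndex L' =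
      (H ⊓ L').relIndex L' :=
    AddSubgroup.relIndex_mul_relIndex _ _ _ le_sup_left (sup_le inf_le_right hL)
  have h2 : (H ⊓ L').relIndex ((H ⊓ L') ⊔ L) = H.relIndex L := by
    rw [AddSubgroup.relIndex_sup_left, ← AddSubgroup.inf_relIndex_right (H ⊓ L') L,
      inf_assoc, inf_eq_right.2 hL, AddSubgroup.inf_relIndex_right]
  rw [h2, AddSubgroup.inf_relIndex_right] at h1
  exact Dvd.intro _ h1

/-- The order of `F k ⊓ X` is `r ^ (number of jumps below k)`. -/
theorem card_inf_flag (r : ℕ) (hr : r.Prime) (F : ℕ → AddSubgroup J) (X : AddSubgroup J)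
    (h0 : F 0 = ⊥) (k : ℕ) (hmono : ∀ i, i < k → F i ≤ F (i + 1))
    (hidx : ∀ i, i < k → (F i).relIndex (F (i + 1)) = r) :
    Nat.card ↥(F k ⊓ X) = r ^ (∑ i ∈ Finset.range k, jmp F X i) := by
  induction k with
  | zero =>
    rw [h0, bot_inf_eq, Finset.range_zero, Finset.sum_empty, pow_zero]
    exact AddSubgroup.card_bot
  | succ k ih =>
    have hk := ih (fun i hi => hmono i (Nat.lt_succ_of_lt hi))
      (fun i hi => hidx i (Nat.lt_succ_of_lt hi))
    have hle : F k ⊓ X ≤ F (k + 1) ⊓ X := inf_le_inf_right X (hmono k (Nat.lt_succ_self k))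
    have h1 : Nat.card ↥(F k ⊓ X) * (F k ⊓ X).relIndex (F (k + 1) ⊓ X) =
        Nat.card ↥(F (k + 1) ⊓ X) := by
      have := AddSubgroup.relIndex_mul_relIndex (⊥ : AddSubgroup J) (F k ⊓ X) (F (k + 1) ⊓ X)
        bot_le hle
      rwa [AddSubgroup.relIndex_bot_left, AddSubgroup.relIndex_bot_left] at this
    have h2 : (F k ⊓ X).relIndex (F (k + 1) ⊓ X) = (F k).relIndex (F (k + 1) ⊓ X) := by
      rw [← AddSubgroup.inf_relIndex_right (F k) (F (k + 1) ⊓ X),
        ← AddSubgroup.inf_relIndex_right (F k ⊓ X) (F (k + 1) ⊓ X)]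
      congr 1
      rw [inf_eq_left.2 hle, ← inf_assoc, inf_eq_left.2 (hmono k (Nat.lt_succ_self k))]
    have h3 : (F k).relIndex (F (k + 1) ⊓ X) = r ^ jmp F X k := by
      by_cases hj : F (k + 1) ⊓ X ≤ F k
      · rw [jmp_eq_zero hj, pow_zero]
        exact AddSubgroup.relIndex_eq_one.2 hj
      · rw [jmp_eq_one hj, pow_one]
        have hd : (F k).relIndex (F (k + 1) ⊓ X) ∣ r := by
          rw [← hidx k (Nat.lt_succ_self k)]
          exact relIndex_dvd_of_le_right_h466 _ _ _ inf_le_left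
        rcases (Nat.dvd_prime hr).1 hd with h | h
        · exact absurd (AddSubgroup.relIndex_eq_one.1 h) hj
        · exact h
    rw [Finset.sum_range_succ, pow_add, ← hk, ← h3, ← h2, h1]

/-- The order of `F k` is `r ^ k`. -/
theorem card_flag (r : ℕ) (F : ℕ → AddSubgroup J)
    (h0 : F 0 = ⊥) (k : ℕ) (hmono : ∀ i, i < k → F i ≤ F (i + 1))
    (hidx : ∀ i, i < k → (F i).relIndex (F (i + 1)) = r) :
    Nat.card ↥(F k) = r ^ k := by
  induction k with
  | zero =>
    rw [h0, pow_zero]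
    exact AddSubgroup.card_bot
  | succ k ih =>
    have hk := ih (fun i hi => hmono i (Nat.lt_succ_of_lt hi))
      (fun i hi => hidx i (Nat.lt_succ_of_lt hi))
    have h1 : Nat.card ↥(F k) * (F k).relIndex (F (k + 1)) = Nat.card ↥(F (k + 1)) := by
      have := AddSubgroup.relIndex_mul_relIndex (⊥ : AddSubgroup J) (F k) (F (k + 1))
        bot_le (hmono k (Nat.lt_succ_self k))
      rwa [AddSubgroup.relIndex_bot_left, AddSubgroup.relIndex_bot_left] at this
    rw [← h1, hk, hidx k (Nat.lt_succ_self k), pow_succ]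

end Chain

section Abs

variable {Γ : Type*} [Group Γ] {J : Type*} [AddCommGroup J] [DistribMulAction Γ J]

/-- **SEL-BOUND from the self-improving count (abstract form).** -/
theorem selBound_abs (r : ℕ) (hr : r.Prime) (F : ℕ → AddSubgroup J) (D : ℕ) (h0 : F 0 = ⊥)
    (hmono : ∀ i, i < D → F i ≤ F (i + 1)) (hst : ∀ i, i ≤ D → IsStable Γ (F i))
    (hidx : ∀ i, i < D → (F i).relIndex (F (i + 1)) = r)
    (K U : AddSubgroup J) (hK : K ≤ F D) (hU : U ≤ F D)
    (hKc : Nat.card ↥K ^ 2 ≤ Nat.card ↥(F D))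
    (hstep : ∀ i, i < D → sel Γ F i ≠ 0 ∧
      sel Γ F i * r ^ (1 - jmp F K i) ≤ r ^ jmp F U i * pG Γ F i)
    (hCNT : (cocSub Γ (⊥ : AddSubgroup J)).relIndex (cocSub Γ (F D)) ≠ 0 →
      Nat.card ↥U ^ 2 ≤ (cocSub Γ (⊥ : AddSubgroup J)).relIndex (cocSub Γ (F D))) :
    (cocSub Γ (⊥ : AddSubgroup J) ⊔ F D).relIndex (cocSub Γ (F D)) ≠ 0 ∧
      (cocSub Γ (⊥ : AddSubgroup J) ⊔ F D).relIndex (cocSub Γ (F D)) ≤
        Nat.card ↥(F D ⊓ cocSub Γ (⊥ : AddSubgroup J)) := by
  classical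
  set A : AddSubgroup J := cocSub Γ (⊥ : AddSubgroup J) with hA
  set W : AddSubgroup J := F D with hW
  set Y : AddSubgroup J := cocSub Γ W with hY
  set a : ℕ := (A ⊔ W).relIndex Y with ha
  set b : ℕ := Nat.card ↥(W ⊓ A) with hb
  have hrpos : 0 < r := hr.pos
  -- sizes
  have hcardW : Nat.card ↥W = r ^ D := card_flag r F h0 D hmono hidx
  have hfinW : Finite ↥W := by
    have : Nat.card ↥W ≠ 0 := by rw [hcardW]; exact pow_ne_zero _ hrpos.ne'
    exact (Nat.card_pos_iff.1 (Nat.pos_of_ne_zero this)).2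
  have hcardK : Nat.card ↥K = r ^ (∑ i ∈ Finset.range D, jmp F K i) := by
    have := card_inf_flag r hr F K h0 D hmono hidx
    rwa [inf_eq_right.2 hK] at this
  have hcardU : Nat.card ↥U = r ^ (∑ i ∈ Finset.range D, jmp F U i) := by
    have := card_inf_flag r hr F U h0 D hmono hidx
    rwa [inf_eq_right.2 hU] at this
  have hsum : (∑ i ∈ Finset.range D, (1 - jmp F K i)) + (∑ i ∈ Finset.range D, jmp F K i) = D := by
    rw [← Finset.sum_add_distrib]
    have : ∀ i ∈ Finset.range D, (1 - jmp F K i) + jmp F K i = 1 := by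
      intro i _
      have := jmp_le_one F K i
      omega
    rw [Finset.sum_congr rfl this]
    simp
  set E : ℕ := r ^ (∑ i ∈ Finset.range D, (1 - jmp F K i)) with hE
  have hEpos : 0 < E := pow_pos hrpos _
  have hwE : Nat.card ↥W = E * Nat.card ↥K := by
    rw [hcardW, hcardK, hE, ← pow_add, hsum]
  have hKpos : 0 < Nat.card ↥K := by rw [hcardK]; exact pow_pos hrpos _
  -- (COUNT)
  have hCOUNT : Nat.card ↥W ≤ E ^ 2 := by
    have h1 : Nat.card ↥K * Nat.card ↥K ≤ E * Nat.card ↥K := by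
      rw [← hwE, ← sq]
      exact hKc
    have h2 : Nat.card ↥K ≤ E := Nat.le_of_mul_le_mul_right h1 hKpos
    rw [hwE, sq]
    exact Nat.mul_le_mul_left _ h2
  -- the engine
  have heng : (∏ i ∈ Finset.range D, sel Γ F i) * b = a * ∏ i ∈ Finset.range D, pG Γ F i :=
    engine_bot (Γ := Γ) F D h0 hmono hst
  have hle : ∀ j, j ≤ D → F j ≤ W := by
    intro j hj
    have hle' : ∀ n, j + n ≤ D → F j ≤ F (j + n) := by
      intro n
      induction n with
      | zero => intro _; exact le_rfl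
      | succ n ihn =>
        intro hn
        exact (ihn (by omega)).trans (hmono (j + n) (by omega))
    have := hle' (D - j) (by omega)
    rwa [Nat.add_sub_cancel' hj] at this
  have hpGne : ∀ i, i < D → pG Γ F i ≠ 0 := by
    intro i hi
    have hfin : Finite ↥(F (i + 1) ⊓ cocSub Γ (F i)) :=
      Finite.of_injective
        (fun x : ↥(F (i + 1) ⊓ cocSub Γ (F i)) => (⟨x.1, hle (i + 1) hi x.2.1⟩ : ↥W))
        (fun x y hxy => Subtype.ext (congrArg (fun z : ↥W => (z : J)) hxy))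
    exact relIndex_ne_zero_of_finite _ _
  have hPg : 0 < ∏ i ∈ Finset.range D, pG Γ F i :=
    Finset.prod_pos fun i hi => Nat.pos_of_ne_zero (hpGne i (Finset.mem_range.1 hi))
  have hPs : 0 < ∏ i ∈ Finset.range D, sel Γ F i :=
    Finset.prod_pos fun i hi => Nat.pos_of_ne_zero (hstep i (Finset.mem_range.1 hi)).1
  have hbpos : 0 < b := by
    have hfin : Finite ↥(W ⊓ A) :=
      Finite.of_injective (fun x : ↥(W ⊓ A) => (⟨x.1, x.2.1⟩ : ↥W))
        (fun x y hxy => Subtype.ext (congrArg (fun z : ↥W => (z : J)) hxy))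
    exact Nat.card_pos
  have hapos : 0 < a := by
    have h1 : 0 < (∏ i ∈ Finset.range D, sel Γ F i) * b := Nat.mul_pos hPs hbpos
    rw [heng] at h1
    exact Nat.pos_of_ne_zero fun h => by rw [h, zero_mul] at h1; exact lt_irrefl _ h1
  -- (SEL)
  have hprod : (∏ i ∈ Finset.range D, sel Γ F i) * E ≤
      r ^ (∑ i ∈ Finset.range D, jmp F U i) * ∏ i ∈ Finset.range D, pG Γ F i := by
    have h1 : ∏ i ∈ Finset.range D, (sel Γ F i * r ^ (1 - jmp F K i)) ≤
        ∏ i ∈ Finset.range D, (r ^ jmp F U i * pG Γ F i) :=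
      Finset.prod_le_prod (fun i _ => Nat.zero_le _)
        (fun i hi => (hstep i (Finset.mem_range.1 hi)).2)
    rwa [Finset.prod_mul_distrib, Finset.prod_mul_distrib, Finset.prod_pow_eq_pow_sum,
      Finset.prod_pow_eq_pow_sum] at h1
  have hSEL : a * E ≤ b * Nat.card ↥U := by
    have h1 : (a * E) * (∏ i ∈ Finset.range D, pG Γ F i) ≤
        (b * Nat.card ↥U) * ∏ i ∈ Finset.range D, pG Γ F i := by
      calc (a * E) * (∏ i ∈ Finset.range D, pG Γ F i)
          = (a * ∏ i ∈ Finset.range D, pG Γ F i) * E := by ring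
        _ = ((∏ i ∈ Finset.range D, sel Γ F i) * b) * E := by rw [← heng]
        _ = b * ((∏ i ∈ Finset.range D, sel Γ F i) * E) := by ring
        _ ≤ b * (r ^ (∑ i ∈ Finset.range D, jmp F U i) * ∏ i ∈ Finset.range D, pG Γ F i) :=
            Nat.mul_le_mul_left _ hprod
        _ = (b * Nat.card ↥U) * ∏ i ∈ Finset.range D, pG Γ F i := by rw [hcardU]; ring
    exact Nat.le_of_mul_le_mul_right h1 hPg
  -- (CNT)
  have hAW : A ≤ A ⊔ W := le_sup_left
  have hWY : W ≤ Y := le_cocSub_of_isStable (hst D le_rfl)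
  have hAY : A ≤ Y := cocSub_mono bot_le
  have hAWY : A ⊔ W ≤ Y := sup_le hAY hWY
  have hidxAY : A.relIndex Y = A.relIndex W * a := by
    rw [← AddSubgroup.relIndex_mul_relIndex A (A ⊔ W) Y hAW hAWY, AddSubgroup.relIndex_sup_left]
  have hidxW : A.relIndex W * b = Nat.card ↥W := by
    have := AddSubgroup.relIndex_mul_relIndex (⊥ : AddSubgroup J) (W ⊓ A) W bot_le inf_le_left
    rw [AddSubgroup.relIndex_bot_left, AddSubgroup.relIndex_bot_left, inf_comm,
      AddSubgroup.inf_relIndex_right] at this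
    rw [hb, inf_comm, mul_comm]
    exact this
  have hAWne : A.relIndex W ≠ 0 := relIndex_ne_zero_of_finite _ _
  have hAYne : A.relIndex Y ≠ 0 := by
    rw [hidxAY]
    exact Nat.mul_ne_zero hAWne hapos.ne'
  have hCNT' : Nat.card ↥U ^ 2 * b ≤ a * Nat.card ↥W := by
    calc Nat.card ↥U ^ 2 * b ≤ A.relIndex Y * b := Nat.mul_le_mul_right _ (hCNT hAYne)
      _ = a * (A.relIndex W * b) := by rw [hidxAY]; ring
      _ = a * Nat.card ↥W := by rw [hidxW]
  exact ⟨hapos.ne', Fermat.Agent.S15.H208.selfImproving a b (Nat.card ↥U) (Nat.card ↥W) E hapos hEpos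
    hSEL hCNT' hCOUNT⟩

end Abs

end Fermat.Agent.S15.H466
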