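import Fermat.Agent.S15.H975.DescSpec
import Fermat.Agent.S15.H208.LocPSpec
import Fermat.Agent.S15.H466.SelAbs

/-!
# S15 / DESC — SEL-BOUND on route 208, in the language of the frozen skeleton (helper466)

`H975.DescSpec` asks (node LOCAL) for subgroups `K, U ≤ W_E` with `|K| |U| ≤ |W_E|`; on
helper208's route (`coord/S15-LOCp-helper208.md`: no T7) the subgroup `U₀ = (τ₀ - 1) Y_E` is only
known to satisfy `|U₀|² ≤ [Y_E : A]`.  This file is the consumer:

* `selBound_of_cnt`  : flag + `|K|² ≤ |W_E|` + step bounds w.r.t. `(K, U)` + (CNT) `|U|² ≤ [Y_E : A]`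
                       ⟹ `H975.SelBound p S r`                (pure algebra);
* `cnt_ramSub`       : (CNT) for `U = ramSub p S r τ₀ = (τ₀ - 1) Y_E` from (DIV), (PROJ), (T6''),
                       finiteness                              (instance of `H208.card_tauSub_YE_sq_le`);
* `selBound_route208`: the two together;
* `Local208Statement`, `descCoreTarget_route208` : the skeleton top for route 208
  (replaces `H975.LocalStatement` + `H975.EngineStatement`; T6, T7, LOCP are not used).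
-/

set_option autoImplicit false
set_option linter.unusedSectionVars false

noncomputable section

namespace Fermat.Agent.S15.H466

open ModularCurve Fermat.Agent.S15.H975
open Fermat.Agent.S15.H842.Engine (cocSub)

section Dict

variable (p : ℕ) [NeZero p]

/-! The Prelude `SMul` instance of `Gal` on `JZero p` is not syntactically the one of its
`DistribMulAction`: the usual lemmas are restated once. -/

theorem gal_smul_zero_h466 (σ : Gal) : σ • (0 : JZero p) = 0 := smul_zero (A := JZero p) σ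

theorem gal_smul_add_h466 (σ : Gal) (x y : JZero p) : σ • (x + y) = σ • x + σ • y :=
  smul_add (A := JZero p) σ x y

theorem gal_smul_sub_h466 (σ : Gal) (x y : JZero p) : σ • (x - y) = σ • x - σ • y :=
  smul_sub (A := JZero p) σ x y

theorem gal_smul_neg_h466 (σ : Gal) (x : JZero p) : σ • (-x) = -(σ • x) :=
  smul_neg (A := JZero p) σ x

theorem gal_smul_nsmul_h466 (σ : Gal) (r : ℕ) (y : JZero p) : σ • (r • y) = r • (σ • y) :=
  map_nsmul (DistribSMul.toAddMonoidHom (JZero p) σ) r y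

theorem gal_smul_zsmul_h466 (σ : Gal) (r : ℤ) (y : JZero p) : σ • (r • y) = r • (σ • y) :=
  map_zsmul (DistribSMul.toAddMonoidHom (JZero p) σ) r y

theorem rat_eq_cocSub : rat p = cocSub Gal (⊥ : AddSubgroup (JZero p)) := by
  ext x
  rw [Fermat.Agent.S15.H842.Engine.mem_cocSub_bot]
  exact Iff.rfl

theorem rat_eq_fixedPoints : rat p = FixedPoints.addSubgroup Gal (JZero p) := by
  ext x
  exact Iff.rfl

theorem eis_le_tors (S : Set ℕ) (r : ℕ) : eis p S r ≤ tors p r := fun _ hw => hw.1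

theorem sel_eq_cocSub (r : ℕ) (F : AddSubgroup (JZero p)) (hF : F ≤ tors p r) :
    sel p r F = cocSub Gal F := by
  ext y
  constructor
  · intro h σ
    exact h.2 σ
  · intro h
    refine ⟨fun σ => ?_, fun σ => h σ⟩
    have h1 : r • (σ • y - y) = 0 := hF (h σ)
    have h2 : σ • (r • y) - r • y = r • (σ • y - y) := by
      rw [nsmul_sub, gal_smul_nsmul_h466]
    exact sub_eq_zero.1 (h2.trans h1)

theorem isStable_iff (F : AddSubgroup (JZero p)) :
    H975.IsStable p F ↔ Fermat.Agent.S15.H842.Engine.IsStable Gal F :=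
  ⟨fun h σ f hf => h σ f hf, fun h σ f hf => h σ f hf⟩

end Dict

section Main

variable (p : ℕ) [NeZero p]

/-- monotonicity of a flag -/
theorem flag_le {S : Set ℕ} {r D : ℕ} {F : ℕ → AddSubgroup (JZero p)} (hF : IsFlag p S r D F)
    (j : ℕ) (hj : j ≤ D) : F j ≤ eis p S r := by
  have hle' : ∀ n, j + n ≤ D → F j ≤ F (j + n) := by
    intro n
    induction n with
    | zero => intro _; exact le_rfl
    | succ n ihn =>
      intro hn
      exact (ihn (by omega)).trans (hF.2.2 (j + n) (by omega)).1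
  have := hle' (D - j) (by omega)
  rw [Nat.add_sub_cancel' hj, hF.2.1] at this
  exact this

/-- **SEL-BOUND from step bounds and (CNT)** (pure algebra, route 208).  No bound
`|K| |U| ≤ |W_E|` is required. -/
theorem selBound_of_cnt (S : Set ℕ) (r : ℕ) (hr : r.Prime)
    (D : ℕ) (F : ℕ → AddSubgroup (JZero p)) (hF : IsFlag p S r D F)
    (K U : AddSubgroup (JZero p)) (hK : K ≤ eis p S r) (hU : U ≤ eis p S r)
    (hKc : Nat.card ↥K ^ 2 ≤ Nat.card ↥(eis p S r))
    (hstep : ∀ i, i < D → StepBound p r K U (F i) (F (i + 1)))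
    (hCNT : (rat p).relIndex (sel p r (eis p S r)) ≠ 0 →
      Nat.card ↥U ^ 2 ≤ (rat p).relIndex (sel p r (eis p S r))) :
    SelBound p S r := by
  classical
  have hFD : F D = eis p S r := hF.2.1
  have hFt : ∀ j, j ≤ D → F j ≤ tors p r := fun j hj =>
    (flag_le p hF j hj).trans (eis_le_tors p S r)
  have hst : ∀ i, i ≤ D → Fermat.Agent.S15.H842.Engine.IsStable Gal (F i) := by
    intro i hi
    rcases Nat.eq_zero_or_pos i with h | h
    · rw [h, hF.1]
      exact Fermat.Agent.S15.H842.Engine.isStable_bot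
    · obtain ⟨j, rfl⟩ : ∃ j, i = j + 1 := ⟨i - 1, by omega⟩
      exact (isStable_iff p _).1 (hF.2.2 j (by omega)).2.2.1
  have hsel : ∀ i, i < D → selIndex p r (F i) (F (i + 1)) =
      Fermat.Agent.S15.H842.Engine.sel Gal F i := by
    intro i hi
    unfold selIndex Fermat.Agent.S15.H842.Engine.sel
    rw [sel_eq_cocSub p r (F i) (hFt i hi.le), sel_eq_cocSub p r (F (i + 1)) (hFt (i + 1) hi)]
  have hfix : ∀ i, i < D → fixIndex p r (F i) (F (i + 1)) =
      Fermat.Agent.S15.H842.Engine.pG Gal F i := by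
    intro i hi
    unfold fixIndex Fermat.Agent.S15.H842.Engine.pG
    rw [sel_eq_cocSub p r (F i) (hFt i hi.le)]
  have hmain := selBound_abs (Γ := Gal) r hr F D hF.1 (fun i hi => (hF.2.2 i hi).1) hst
    (fun i hi => (hF.2.2 i hi).2.2.2.1) K U (hFD ▸ hK) (hFD ▸ hU) (hFD ▸ hKc)
    (fun i hi => by
      obtain ⟨h0, h1, h2, h3, h4⟩ := hstep i hi
      rw [hsel i hi] at h0 h1 h2 h3 h4
      rw [hfix i hi] at h1 h2 h3 h4
      refine ⟨h0, ?_⟩
      by_cases hk : F (i + 1) ⊓ K ≤ F i <;> by_cases hu : F (i + 1) ⊓ U ≤ F i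
      · rw [jmp_eq_zero hk, jmp_eq_zero hu]
        simpa using h1 hk hu
      · rw [jmp_eq_zero hk, jmp_eq_one hu]
        have := h2 hk hu
        simp only [Nat.sub_zero, pow_one]
        rw [mul_comm]
        exact Nat.mul_le_mul_left r this
      · rw [jmp_eq_one hk, jmp_eq_zero hu]
        simpa using h3 hk hu
      · rw [jmp_eq_one hk, jmp_eq_one hu]
        simpa using h4 hk hu)
    (by
      rw [hFD, ← rat_eq_cocSub, ← sel_eq_cocSub p r (eis p S r) (eis_le_tors p S r)]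
      exact hCNT)
  rw [hFD, ← rat_eq_cocSub, ← sel_eq_cocSub p r (eis p S r) (eis_le_tors p S r)] at hmain
  exact hmain

/-- The Eisenstein part of `J₀(p)[r^∞]`. -/
def eisInf (S : Set ℕ) (r : ℕ) : AddSubgroup (JZero p) where
  carrier := {w | (∃ k : ℕ, r ^ k • w = 0) ∧ IsEis p S w}
  zero_mem' := ⟨⟨0, smul_zero _⟩, isEis_zero p S⟩
  add_mem' := by
    rintro a b ⟨⟨k, hk⟩, ha⟩ ⟨⟨l, hl⟩, hb⟩
    refine ⟨⟨k + l, ?_⟩, ha.add p hb⟩
    have h1 : r ^ (k + l) • a = 0 := by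
      rw [add_comm, pow_add, mul_smul, hk, smul_zero]
    have h2 : r ^ (k + l) • b = 0 := by
      rw [pow_add, mul_smul, hl, smul_zero]
    rw [nsmul_add, h1, h2, add_zero]
  neg_mem' := by
    rintro a ⟨⟨k, hk⟩, ha⟩
    exact ⟨⟨k, by rw [neg_nsmul, hk, neg_zero]⟩, ha.neg p⟩

/-- `U₀ = (τ₀ - 1) Y_E`, the ramification subgroup of route 208. -/
def ramSub (S : Set ℕ) (r : ℕ) (τ₀ : Gal) : AddSubgroup (JZero p) :=
  (sel p r (eis p S r)).map (Fermat.Agent.S15.H208.tauSub τ₀)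

theorem mem_ramSub {S : Set ℕ} {r : ℕ} {τ₀ : Gal} {u : JZero p} :
    u ∈ ramSub p S r τ₀ ↔ ∃ y ∈ sel p r (eis p S r), τ₀ • y - y = u := Iff.rfl

theorem ramSub_le (S : Set ℕ) (r : ℕ) (τ₀ : Gal) : ramSub p S r τ₀ ≤ eis p S r := by
  rintro u ⟨y, hy, rfl⟩
  exact hy.2 τ₀

theorem sub_mem_ramSub {S : Set ℕ} {r : ℕ} (τ₀ : Gal) {y : JZero p}
    (hy : y ∈ sel p r (eis p S r)) : τ₀ • y - y ∈ ramSub p S r τ₀ :=
  ⟨y, hy, rfl⟩

theorem YE_eisInf_eq_sel (S : Set ℕ) (r : ℕ) :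
    Fermat.Agent.S15.H208.YE Gal r (eisInf p S r) = sel p r (eis p S r) := by
  ext y
  constructor
  · rintro ⟨h1, h2⟩
    have h1' : ∀ σ : Gal, σ • (r • y) = r • y := h1
    have h2' : ∀ σ : Gal, σ • y - y ∈ eisInf p S r := h2
    refine ⟨h1', fun σ => ⟨?_, (h2' σ).2⟩⟩
    have h3 : σ • (r • y) - r • y = r • (σ • y - y) := by
      rw [nsmul_sub, gal_smul_nsmul_h466]
    rw [← h3, h1' σ, sub_self]
  · rintro ⟨h1, h2⟩
    exact ⟨h1, fun σ => ⟨⟨1, by rw [pow_one]; exact (h2 σ).1⟩, (h2 σ).2⟩⟩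

/-- Galois-stability of `eisInf` from the Galois-equivariance of the Hecke operators. -/
theorem eisInf_stable (S : Set ℕ) (r : ℕ)
    (hTG : ∀ (ℓ : Nat.Primes) (σ : Gal) (x : JZero p),
      heckeOperatorBar p ℓ (σ • x) = σ • heckeOperatorBar p ℓ x)
    (σ : Gal) (x : JZero p) (hx : x ∈ eisInf p S r) : σ • x ∈ eisInf p S r := by
  obtain ⟨⟨k, hk⟩, hE⟩ := hx
  refine ⟨⟨k, by rw [← gal_smul_nsmul_h466, hk, gal_smul_zero_h466]⟩, fun ℓ h1 h2 => ?_⟩
  obtain ⟨n, hn⟩ := hE ℓ h1 h2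
  refine ⟨n, ?_⟩
  have heta : ∀ z : JZero p, eta p ℓ (σ • z) = σ • eta p ℓ z := by
    intro z
    unfold eta
    simp only [LinearMap.sub_apply, LinearMap.smul_apply, Module.End.one_apply]
    rw [hTG, gal_smul_sub_h466, gal_smul_zsmul_h466]
  have hpow : ∀ (m : ℕ) (z : JZero p), (eta p ℓ ^ m) (σ • z) = σ • (eta p ℓ ^ m) z := by
    intro m
    induction m with
    | zero => intro z; simp
    | succ m ih =>
      intro z
      rw [pow_succ, Module.End.mul_apply, heta, ih, Module.End.mul_apply]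
  rw [hpow, hn, gal_smul_zero_h466]

/-- **(CNT) for `U₀ = (τ₀ - 1) Y_E`**: `|U₀|² ≤ [Y_E : A]` (instance of
`H208.card_tauSub_YE_sq_le` for `M = eisInf p S r`). -/
theorem cnt_ramSub (S : Set ℕ) (r : ℕ) (τ₀ : Gal)
    (hTG : ∀ (ℓ : Nat.Primes) (σ : Gal) (x : JZero p),
      heckeOperatorBar p ℓ (σ • x) = σ • heckeOperatorBar p ℓ x)
    (hDIV : ∀ x : JZero p, ∃ y : JZero p, r • y = x)
    (hPROJ : ∀ k : ℕ, ∃ e : JZero p →+ JZero p, (∀ (σ : Gal) (x : JZero p), e (σ • x) = σ • e x) ∧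
      (∀ x ∈ eisInf p S r, r ^ k • x = 0 → e x = x) ∧
      (∀ x : JZero p, r ^ k • x = 0 → e x ∈ eisInf p S r))
    (hT6 : ∀ k : ℕ, Fermat.Agent.S15.H208.T6ppAt p (r ^ k) τ₀)
    (hfinA : Finite ↥(rat p ⊓ eisInf p S r))
    (hfinY : (rat p).relIndex (sel p r (eis p S r)) ≠ 0) :
    Nat.card ↥(ramSub p S r τ₀) ^ 2 ≤ (rat p).relIndex (sel p r (eis p S r)) := by
  have hMt : ∀ x ∈ eisInf p S r, ∃ k : ℕ, r ^ k • x = 0 := fun x hx => hx.1
  have hMG : ∀ (σ : Gal), ∀ x ∈ eisInf p S r, σ • x ∈ eisInf p S r :=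
    fun σ x hx => eisInf_stable p S r hTG σ x hx
  have hdiv := Fermat.Agent.S15.H208.hullE_divisible (G := Gal) r (eisInf p S r) hDIV hPROJ
  have hT : ∀ h ∈ Fermat.Agent.S15.H208.hullE Gal r (eisInf p S r),
      τ₀ • (τ₀ • h - h) - (τ₀ • h - h) = 0 := by
    rintro h ⟨⟨k, hk⟩, -⟩
    have h1 := hT6 k h hk
    have h2 : τ₀ • (τ₀ • h - h) - (τ₀ • h - h) = τ₀ • (τ₀ • h) + h - 2 • (τ₀ • h) := by
      rw [gal_smul_sub_h466, two_nsmul]
      abel
    rw [h2, h1, sub_self]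
  have hfinA' : Finite ↥(FixedPoints.addSubgroup Gal (JZero p) ⊓ eisInf p S r) := by
    rw [← rat_eq_fixedPoints]
    exact hfinA
  have hfinY' : (FixedPoints.addSubgroup Gal (JZero p)).relIndex
      (Fermat.Agent.S15.H208.YE Gal r (eisInf p S r)) ≠ 0 := by
    rw [← rat_eq_fixedPoints, YE_eisInf_eq_sel]
    exact hfinY
  have h := Fermat.Agent.S15.H208.card_tauSub_YE_sq_le (G := Gal) r (eisInf p S r) τ₀ hMt hMG
    hdiv hT hfinA' hfinY'
  rw [← rat_eq_fixedPoints, YE_eisInf_eq_sel] at h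
  exact h

/-- **SEL-BOUND on route 208.** -/
theorem selBound_route208 (S : Set ℕ) (r : ℕ) (hr : r.Prime)
    (hTG : ∀ (ℓ : Nat.Primes) (σ : Gal) (x : JZero p),
      heckeOperatorBar p ℓ (σ • x) = σ • heckeOperatorBar p ℓ x)
    (hDIV : ∀ x : JZero p, ∃ y : JZero p, r • y = x)
    (hPROJ : ∀ k : ℕ, ∃ e : JZero p →+ JZero p, (∀ (σ : Gal) (x : JZero p), e (σ • x) = σ • e x) ∧
      (∀ x ∈ eisInf p S r, r ^ k • x = 0 → e x = x) ∧
      (∀ x : JZero p, r ^ k • x = 0 → e x ∈ eisInf p S r))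
    (hfinA : Finite ↥(rat p ⊓ eisInf p S r))
    (D : ℕ) (F : ℕ → AddSubgroup (JZero p)) (hF : IsFlag p S r D F)
    (K : AddSubgroup (JZero p)) (hK : K ≤ eis p S r)
    (hKc : Nat.card ↥K ^ 2 ≤ Nat.card ↥(eis p S r))
    (τ₀ : Gal) (hT6 : ∀ k : ℕ, Fermat.Agent.S15.H208.T6ppAt p (r ^ k) τ₀)
    (hstep : ∀ i, i < D → StepBound p r K (ramSub p S r τ₀) (F i) (F (i + 1))) :
    SelBound p S r :=
  selBound_of_cnt p S r hr D F hF K (ramSub p S r τ₀) hK (ramSub_le p S r τ₀) hKc hstep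
    (cnt_ramSub p S r τ₀ hTG hDIV hPROJ hT6 hfinA)

end Main

/-! ## The skeleton top on route 208 -/

/-- **HECKE-GAL** (on main: `S29.H571`): the Hecke operators commute with the Galois action. -/
def HeckeGalStatement : Prop :=
  ∀ (p : ℕ) [NeZero p] (ℓ : Nat.Primes) (σ : Gal) (x : JZero p),
    heckeOperatorBar p ℓ (σ • x) = σ • heckeOperatorBar p ℓ x

/-- **PROJ**: for every `k` a Galois-equivariant endomorphism of `J₀(p)` which is the identity
on the Eisenstein part of `J₀(p)[r^k]` and maps `J₀(p)[r^k]` into the Eisenstein part of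
`J₀(p)[r^∞]` (a polynomial in the Hecke operators; pure algebra from FIN + commutativity). -/
def ProjStatement : Prop :=
  ∀ (p : ℕ) [NeZero p], p.Prime → ∀ (S : Finset ℕ) (r : ℕ), r.Prime → ∀ k : ℕ,
    ∃ e : JZero p →+ JZero p, (∀ (σ : Gal) (x : JZero p), e (σ • x) = σ • e x) ∧
      (∀ x ∈ eisInf p (S : Set ℕ) r, r ^ k • x = 0 → e x = x) ∧
      (∀ x : JZero p, r ^ k • x = 0 → e x ∈ eisInf p (S : Set ℕ) r)

/-- **T6''** at level `p`, inertia at `p`, all moduli `r^k` (`H208.T6ppStatement`;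
owner helper608). -/
def T6ppAllStatement : Prop :=
  ∀ (p : ℕ) [NeZero p], p.Prime → ∀ r : ℕ, r.Prime → r ∣ p - 1 → ∀ k : ℕ,
    Fermat.Agent.S15.H208.T6ppStatement p p (r ^ k)

/-- **LOCAL on route 208** (replaces `H975.LocalStatement`): an inertia element `τ₀` at `p` and
a subgroup `K ≤ W_E` with `|K|² ≤ |W_E|` such that every Eisenstein piece satisfies the step bound
relative to `K` and `U₀ = (τ₀ - 1) Y_E`.  NO bound on `|U₀|` is asked.
(`K = W_E^{cc = -1}` for `r` odd, `K = W_E ∩ (cc - 1) J[4]` for `r = 2`; `τ₀` non-trivial on the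
degree-`r` subfield of `ℚ(ζ_p)` and on `p^{1/r}`.) -/
def Local208Statement : Prop :=
  ∀ (p : ℕ) [NeZero p], p.Prime → ∀ (S : Finset ℕ) (r : ℕ), r.Prime → r ∣ p - 1 →
    ∃ (A : ValuationSubring Qb) (τ₀ : Gal) (K : AddSubgroup (JZero p)),
      A.LiesOverPrime p ∧ τ₀ ∈ A.inertiaSubgroupIn ℚ ∧
      K ≤ eis p (S : Set ℕ) r ∧ Nat.card ↥K ^ 2 ≤ Nat.card ↥(eis p (S : Set ℕ) r) ∧
      ∀ F' F : AddSubgroup (JZero p), F ≤ eis p (S : Set ℕ) r → IsEisPiece p r F' F →
        StepBound p r K (ramSub p (S : Set ℕ) r τ₀) F' F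

/-- **SEL-BOUND on route 208 from the nodes.** -/
theorem selBound_of_nodes208 (hDiv : DivStatement) (hFin : FinStatement) (hRtf : RtfStatement)
    (hFlag : FlagStatement) (hLoc : Local208Statement) (hT6 : T6ppAllStatement)
    (hTG : HeckeGalStatement) (hProj : ProjStatement)
    (p : ℕ) [NeZero p] (hp : p.Prime) (S : Finset ℕ) (r : ℕ) (hr : r.Prime) (hrp : r ∣ p - 1) :
    SelBound p (S : Set ℕ) r := by
  obtain ⟨D, F, hF⟩ := hFlag p hp S r hr hrp
  obtain ⟨A, τ₀, K, hA, hτ, hK, hKc, hstep⟩ := hLoc p hp S r hr hrp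
  obtain ⟨e, he, hexp⟩ := hRtf p hp
  have hfinA : Finite ↥(rat p ⊓ eisInf p (S : Set ℕ) r) := by
    have : Finite ↥(tors p e) := hFin p e he
    refine Finite.of_injective
      (fun x : ↥(rat p ⊓ eisInf p (S : Set ℕ) r) => (⟨x.1, ?_⟩ : ↥(tors p e))) ?_
    · obtain ⟨k, hk⟩ := x.2.2.1
      exact hexp x.1 x.2.1 ⟨r ^ k, pow_pos hr.pos k, hk⟩
    · intro a b hab
      exact Subtype.ext (congrArg (fun z : ↥(tors p e) => (z : JZero p)) hab)
  exact selBound_route208 p (S : Set ℕ) r hr (hTG p) (hDiv p hp r hr) (hProj p hp S r hr) hfinA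
    D F hF K hK hKc τ₀ (fun k => hT6 p hp r hr hrp k A hA τ₀ hτ)
    (fun i hi => hstep (F i) (F (i + 1)) (flag_le p hF (i + 1) hi) (hF.2.2 i hi))

/-- **The descent core on route 208** (assembly; `DescCoreTarget = H302.DescCoreAt`). -/
theorem descCoreTarget_route208 (hA : Alg0Statement) (hDiv : DivStatement) (hFin : FinStatement)
    (hRtf : RtfStatement) (hFlag : FlagStatement) (hLoc : Local208Statement)
    (hT6 : T6ppAllStatement) (hTG : HeckeGalStatement) (hProj : ProjStatement)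
    (p : ℕ) [NeZero p] (hp : p.Prime) (S : Finset ℕ) (r : ℕ) (hr : r.Prime) (hrp : r ∣ p - 1) :
    DescCoreTarget p (S : Set ℕ) r :=
  hA p (S : Set ℕ) r hp hr (hDiv p hp r hr) (fun n hn => hFin p n hn) (hRtf p hp)
    (selBound_of_nodes208 hDiv hFin hRtf hFlag hLoc hT6 hTG hProj p hp S r hr hrp)

end Fermat.Agent.S15.H466
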