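import Fermat.Agent.S15.H975.DescSpec2
import Fermat.Agent.S15.H466.SelAsm

/-!
# S15 / DESC — node SEL-ASM of the official route, VERBATIM (helper466)

`selAsm : H975.SelAsmStatement`
(`= FlagStatement → CountStatement → CntStatement → StepStatement → SelStatement`),
from `H466.selBound_of_cnt` (exact ENGINE of helper842 + `H208.selfImproving`).
-/

set_option autoImplicit false

noncomputable section

namespace Fermat.Agent.S15.H466

open ModularCurve Fermat.Agent.S15.H975

/-- **SEL-ASM** (official route of row S15, `H975/DescSpec2.lean`). -/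
theorem selAsm : SelAsmStatement := by
  intro hFlag hCount hCnt hStep p _ hp S r hr hrp
  obtain ⟨D, F, hF⟩ := hFlag p hp S r hr hrp
  obtain ⟨A, hA, τ₀, hτ, hstep⟩ := hStep p hp S r hr hrp
  exact selBound_of_cnt p (S : Set ℕ) r hr D F hF
    (cocImage p (S : Set ℕ) r complexConjugation) (cocImage p (S : Set ℕ) r τ₀)
    (cocImage_le p (S : Set ℕ) r complexConjugation) (cocImage_le p (S : Set ℕ) r τ₀)
    (hCount p hp S r hr hrp)
    (fun i hi => hstep (F i) (F (i + 1)) (flag_le p hF (i + 1) hi) (hF.2.2 i hi))
    (hCnt p hp S r hr hrp A hA τ₀ hτ)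

end Fermat.Agent.S15.H466
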