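import Fermat.Agent.S15.H322.BasePiece
import Fermat.Agent.S15.H322.BaseTwo
import Fermat.Agent.S15.H11.Tau0

/-!
# Row S15, leaf STEP (helper466): abstract part

`J` an abelian group with an action of `G = Gal(ℚ̄/ℚ)`; vocabulary of `S15.H322` (`HasCoord`,
`HasLevel`, `KumIn`, `IsTwCoc`, `KumDivAt`, `IsCharUnrOutside`).

* `exists_tau0_h466`       : the choice of `τ₀ ∈ I_A` (`A` over `p`): `τ₀` moves `π` (`π ^ r = p`)
  and every character `G → ℤ/r` unramified outside `p` which vanishes at `τ₀` is zero.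
* `piece_two_pos_h466`, `piece_two_unr_h466`, `piece_two_triv_h466` : the piece lemmas for `r = 2`
  (real place and place `p`).
* `relIndex_le_four_h466`  : the index-4 bound by two successive dichotomies.
-/

set_option autoImplicit false
set_option linter.unusedSectionVars false
set_option linter.style.haveILetI false

namespace Fermat.Agent.S15.H466

open Fermat.Agent.S15.H322 Fermat.Agent.S56.H786

/-- `ℚ̄` (local abbreviation). -/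
local notation "Qb" => AlgebraicClosure ℚ

/-- `Gal(ℚ̄/ℚ)` (local abbreviation). -/
local notation "GQ" => (AlgebraicClosure ℚ ≃ₐ[ℚ] AlgebraicClosure ℚ)

/-! ## The choice of `τ₀` -/

/-- **Choice of `τ₀`.**  `p ≠ r` primes, `A` over `p`, `π ^ r = p`.  There is `τ₀` in the inertia
group of `A` which moves `π` and detects every character `G_ℚ → ℤ/r` unramified outside `p`. -/
theorem exists_tau0_h466 {p r : ℕ} (hp : p.Prime) (hr : r.Prime) (hrp : r ≠ p)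
    (A : ValuationSubring Qb) (hA : A.LiesOverPrime p) {π : Qb} (hπ : π ^ r = (p : Qb)) :
    ∃ τ₀ ∈ A.inertiaSubgroupIn ℚ, τ₀ π ≠ π ∧
      ∀ f : GQ → ZMod r, IsCharUnrOutside p f → f τ₀ = 0 → ∀ σ, f σ = 0 := by
  haveI : Fact r.Prime := ⟨hr⟩
  obtain ⟨a, ha, haπ⟩ := Fermat.Agent.S15.H11.exists_inertia_moves_root A hp hr hA hπ
  by_cases hX : ∃ χ₀ : GQ → ZMod r, IsCharUnrOutside p χ₀ ∧ ∃ σ, χ₀ σ ≠ 0
  · obtain ⟨χ₀, hχ₀, σ₀, hσ₀⟩ := hX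
    -- an inertia element on which `χ₀` does not vanish
    have hb : ∃ b ∈ A.inertiaSubgroupIn ℚ, χ₀ b ≠ 0 := by
      by_contra hcon
      simp only [not_exists, not_and, not_not] at hcon
      exact hσ₀ (hχ₀.eq_zero_of_unram ⟨A, hA, hcon⟩ σ₀)
    obtain ⟨b, hb, hbχ⟩ := hb
    -- the element `τ₀`
    have hτ : ∃ τ₀ ∈ A.inertiaSubgroupIn ℚ, τ₀ π ≠ π ∧ χ₀ τ₀ ≠ 0 := by
      by_cases h1 : χ₀ a = 0
      · by_cases h2 : b π = π
        · refine ⟨a * b, (A.inertiaSubgroupIn ℚ).mul_mem ha hb, ?_, ?_⟩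
          · rw [AlgEquiv.mul_apply, h2]
            exact haπ
          · rw [hχ₀.map_mul, h1, zero_add]
            exact hbχ
        · exact ⟨b, hb, h2, hbχ⟩
      · exact ⟨a, ha, haπ, h1⟩
    obtain ⟨τ₀, hτ₀, hτ₀π, hτ₀χ⟩ := hτ
    refine ⟨τ₀, hτ₀, hτ₀π, fun f hf hfτ σ => ?_⟩
    rcases hχ₀.dichotomy hf hp hr hrp (Nat.card_zmod r) with h0 | ⟨m, -, hm⟩
    · exact absurd (h0 σ₀) hσ₀
    · have h1 : (m : ZMod r) * χ₀ τ₀ = 0 := by
        rw [← nsmul_eq_mul, ← hm τ₀, hfτ]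
      have h2 : (m : ZMod r) = 0 := (mul_eq_zero.mp h1).resolve_right hτ₀χ
      rw [hm σ, nsmul_eq_mul, h2, zero_mul]
  · refine ⟨a, ha, haπ, fun f hf _ σ => ?_⟩
    by_contra hne
    exact hX ⟨f, hf, σ, hne⟩

/-! ## Index bounds -/

section Index

variable {J : Type*} [AddCommGroup J]

/-- Two successive dichotomies give index `≤ r * r`. -/
theorem relIndex_le_sq_h466 (H P Y : AddSubgroup J) {r : ℕ} (hr : 0 < r)
    (h1 : ∀ y₁ ∈ Y, ∀ y₂ ∈ Y, y₁ ∈ P ∨ ∃ m : ℕ, m < r ∧ y₂ - m • y₁ ∈ P)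
    (h2 : ∀ y₁ ∈ P ⊓ Y, ∀ y₂ ∈ P ⊓ Y, y₁ ∈ H ∨ ∃ m : ℕ, m < r ∧ y₂ - m • y₁ ∈ H) :
    H.relIndex Y ≠ 0 ∧ H.relIndex Y ≤ r * r := by
  obtain ⟨hP0, hPr⟩ := relIndex_le_of_dichotomy P Y hr h1
  obtain ⟨hH0, hHr⟩ := relIndex_le_of_dichotomy H (P ⊓ Y) hr h2
  have hmul : (H ⊓ (P ⊓ Y)).relIndex (P ⊓ Y) * (P ⊓ Y).relIndex Y = (H ⊓ (P ⊓ Y)).relIndex Y :=
    AddSubgroup.relIndex_mul_relIndex _ _ _ inf_le_right inf_le_right
  rw [AddSubgroup.inf_relIndex_right, AddSubgroup.inf_relIndex_right] at hmul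
  have hdvd : H.relIndex Y ∣ (H ⊓ (P ⊓ Y)).relIndex Y :=
    AddSubgroup.relIndex_dvd_of_le_left Y inf_le_left
  have hne : (H ⊓ (P ⊓ Y)).relIndex Y ≠ 0 := by
    rw [← hmul]
    exact mul_ne_zero hH0 hP0
  have hle : (H ⊓ (P ⊓ Y)).relIndex Y ≤ r * r := by
    rw [← hmul]
    exact Nat.mul_le_mul hHr hPr
  refine ⟨fun h0 => hne ?_, (Nat.le_of_dvd (Nat.pos_of_ne_zero hne) hdvd).trans hle⟩
  rw [h0] at hdvd
  exact Nat.eq_zero_of_zero_dvd hdvd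

end Index

/-! ## Pieces for `r = 2` -/

section Two

variable {J : Type*} [AddCommGroup J] [DistribMulAction GQ J]
variable {F' : AddSubgroup J} {e : J}

/-- For `r = 2`, a cocycle which is a coboundary gives Kummer values in `F'`. -/
theorem kumIn_of_isTwCob_two_h466 {ζ : Qb} (hζ : IsPrimitiveRoot ζ 2)
    (he : e ∉ F') (hre : 2 • e ∈ F')
    (hact : ∀ σ : GQ, ∀ a : ℕ, Fermat.Agent.S56.IsCycExp 2 σ a → σ • e - a • e ∈ F')
    {y₁ y₂ : J} {f₁ f₂ : GQ → ZMod 2} (h₁ : HasCoord 2 F' e y₁ f₁) (h₂ : HasCoord 2 F' e y₂ f₂)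
    (m : ℕ) (n : ZMod 2) (hcob : IsTwCob 2 (fun σ => f₂ σ - (m : ZMod 2) * f₁ σ) n) :
    KumIn F' (y₂ - m • y₁) := by
  have h0 : IsTwCob 2 (fun σ => f₂ σ - (m : ZMod 2) * f₁ σ) 0 := by
    intro σ a _
    rw [mul_zero]
    exact isTwCob_two hζ hcob σ
  have := kumIn_of_isTwCob Nat.prime_two hζ he hre hact h₁ h₂ m 0 h0
  rwa [ZMod.val_zero, zero_smul, sub_zero] at this

/-- **Piece, `r = 2`, positive at the real place, local conditions away from `p`.** -/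
theorem piece_two_pos_h466 {p : ℕ} (hp : p.Prime) {ζ : Qb} (hζ : IsPrimitiveRoot ζ 2)
    (hstab : ∀ σ : GQ, ∀ x ∈ F', σ • x ∈ F') (he : e ∉ F') (hre : 2 • e ∈ F')
    (hact : ∀ σ : GQ, ∀ a : ℕ, Fermat.Agent.S56.IsCycExp 2 σ a → σ • e - a • e ∈ F')
    {y₁ y₂ : J} {f₁ f₂ : GQ → ZMod 2} (h₁ : HasCoord 2 F' e y₁ f₁) (h₂ : HasCoord 2 F' e y₂ f₂)
    (hl₁ : HasLevel y₁) (hl₂ : HasLevel y₂)
    (hc₁ : f₁ complexConjugation = 0) (hc₂ : f₂ complexConjugation = 0)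
    (hdiv₁ : ∀ ℓ : ℕ, ℓ.Prime → ℓ ≠ p → KumDivAt 2 ζ f₁ ℓ)
    (hdiv₂ : ∀ ℓ : ℕ, ℓ.Prime → ℓ ≠ p → KumDivAt 2 ζ f₂ ℓ) :
    KumIn F' y₁ ∨ ∃ m : ℕ, m < 2 ∧ KumIn F' (y₂ - m • y₁) := by
  have hcoc₁ := h₁.isTwCoc Nat.prime_two hstab he hre hact hl₁
  have hcoc₂ := h₂.isTwCoc Nat.prime_two hstab he hre hact hl₂
  rcases tw_dichotomy_two_pos hp hζ hcoc₁ hcoc₂ hc₁ hc₂ hdiv₁ hdiv₂ with ⟨n, hn⟩ | ⟨m, hm, n, hn⟩
  · left
    have hn' : IsTwCob 2 (fun σ => f₁ σ - ((0 : ℕ) : ZMod 2) * f₁ σ) n := by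
      intro σ a ha
      simp only [Nat.cast_zero, zero_mul, sub_zero]
      exact hn σ a ha
    have := kumIn_of_isTwCob_two_h466 hζ he hre hact h₁ h₁ 0 n hn'
    rwa [zero_smul, sub_zero] at this
  · right
    exact ⟨m, hm, kumIn_of_isTwCob_two_h466 hζ he hre hact h₁ h₂ m n hn⟩

/-- **Piece, `r = 2`, local conditions at all primes.** -/
theorem piece_two_unr_h466 {ζ : Qb} (hζ : IsPrimitiveRoot ζ 2)
    (hstab : ∀ σ : GQ, ∀ x ∈ F', σ • x ∈ F') (he : e ∉ F') (hre : 2 • e ∈ F')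
    (hact : ∀ σ : GQ, ∀ a : ℕ, Fermat.Agent.S56.IsCycExp 2 σ a → σ • e - a • e ∈ F')
    {y₁ y₂ : J} {f₁ f₂ : GQ → ZMod 2} (h₁ : HasCoord 2 F' e y₁ f₁) (h₂ : HasCoord 2 F' e y₂ f₂)
    (hl₁ : HasLevel y₁) (hl₂ : HasLevel y₂)
    (hdiv₁ : ∀ ℓ : ℕ, ℓ.Prime → KumDivAt 2 ζ f₁ ℓ)
    (hdiv₂ : ∀ ℓ : ℕ, ℓ.Prime → KumDivAt 2 ζ f₂ ℓ) :
    KumIn F' y₁ ∨ ∃ m : ℕ, m < 2 ∧ KumIn F' (y₂ - m • y₁) := by
  have hcoc₁ := h₁.isTwCoc Nat.prime_two hstab he hre hact hl₁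
  have hcoc₂ := h₂.isTwCoc Nat.prime_two hstab he hre hact hl₂
  rcases tw_dichotomy_two_unr hζ hcoc₁ hcoc₂ hdiv₁ hdiv₂ with ⟨n, hn⟩ | ⟨m, hm, n, hn⟩
  · left
    have hn' : IsTwCob 2 (fun σ => f₁ σ - ((0 : ℕ) : ZMod 2) * f₁ σ) n := by
      intro σ a ha
      simp only [Nat.cast_zero, zero_mul, sub_zero]
      exact hn σ a ha
    have := kumIn_of_isTwCob_two_h466 hζ he hre hact h₁ h₁ 0 n hn'
    rwa [zero_smul, sub_zero] at this
  · right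
    exact ⟨m, hm, kumIn_of_isTwCob_two_h466 hζ he hre hact h₁ h₂ m n hn⟩

/-- **Piece, `r = 2`, positive and local conditions at all primes**: Kummer values in `F'`. -/
theorem piece_two_triv_h466 {ζ : Qb} (hζ : IsPrimitiveRoot ζ 2)
    (hstab : ∀ σ : GQ, ∀ x ∈ F', σ • x ∈ F') (he : e ∉ F') (hre : 2 • e ∈ F')
    (hact : ∀ σ : GQ, ∀ a : ℕ, Fermat.Agent.S56.IsCycExp 2 σ a → σ • e - a • e ∈ F')
    {y : J} {f : GQ → ZMod 2} (h : HasCoord 2 F' e y f) (hl : HasLevel y)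
    (hc : f complexConjugation = 0) (hdiv : ∀ ℓ : ℕ, ℓ.Prime → KumDivAt 2 ζ f ℓ) :
    KumIn F' y := by
  have hcoc := h.isTwCoc Nat.prime_two hstab he hre hact hl
  have h0 : ∀ σ, f σ = 0 := tw_trivial_two hζ hcoc hc hdiv
  have hn' : IsTwCob 2 (fun σ => f σ - ((0 : ℕ) : ZMod 2) * f σ) 0 := by
    intro σ a _
    simp only [Nat.cast_zero, zero_mul, sub_zero, mul_zero]
    exact h0 σ
  have := kumIn_of_isTwCob_two_h466 hζ he hre hact h h 0 0 hn'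
  rwa [zero_smul, sub_zero] at this

end Two

/-! ## Coordinates -/

section Coord

variable {J : Type*} [AddCommGroup J] [DistribMulAction GQ J]
variable {r : ℕ} {F' : AddSubgroup J} {e : J}

/-- The coordinate vanishes at `σ` iff `σ y - y ∈ F'`. -/
theorem coord_eq_zero_iff_h466 (hr : r.Prime) (he : e ∉ F') (hre : r • e ∈ F') {y : J}
    {f : GQ → ZMod r} (hf : HasCoord r F' e y f) (σ : GQ) :
    f σ = 0 ↔ σ • y - y ∈ F' := by
  haveI : NeZero r := ⟨hr.ne_zero⟩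
  constructor
  · intro h0
    have := hf σ
    rwa [h0, ZMod.val_zero, zero_smul, sub_zero] at this
  · intro h
    have h1 : (((f σ).val : ℤ) • e) ∈ F' := by
      have h2 := F'.sub_mem h (hf σ)
      rwa [sub_sub_cancel, ← natCast_zsmul] at h2
    rw [zsmul_mem_iff hr he hre] at h1
    push_cast at h1
    rwa [ZMod.natCast_zmod_val] at h1

/-- Local condition at `p` from `f τ₀ = 0`, `τ₀` an inertia element at `p` moving `π`. -/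
theorem kumDivAt_of_tau0_h466 {p : ℕ} (hp : p.Prime) (hr : r.Prime) (hrp : r ≠ p)
    (A : ValuationSubring Qb) (hA : A.LiesOverPrime p) {π : Qb} (hπ : π ^ r = (p : Qb))
    {τ₀ : GQ} (hτ₀ : τ₀ ∈ A.inertiaSubgroupIn ℚ) (hτ₀π : τ₀ π ≠ π)
    {ζ : Qb} {f : GQ → ZMod r} (h0 : f τ₀ = 0) : KumDivAt r ζ f p := by
  haveI : NeZero r := ⟨hr.ne_zero⟩
  intro β a hβ hβa
  have ha : a ≠ 0 := by
    rintro rfl
    rw [Rat.cast_zero] at hβa
    exact hβ.1 (pow_eq_zero_iff hr.ne_zero |>.mp hβa)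
  refine Fermat.Agent.S15.H11.dvd_padicValRat_of_fixed_by A hp hr hrp hA hπ hτ₀ hτ₀π ha hβa ?_
  rw [hβ.2 τ₀, h0, zp_zero, one_mul]

end Coord

end Fermat.Agent.S15.H466
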