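import Fermat.Agent.S15.H466.StepAbs
import Fermat.Agent.S15.H975.DescSpec2

/-!
# Row S15, leaf STEP (helper466): the step bounds on `J₀(p)`

`stepStatement_of_nodes : G3Statement → Peu1JStatement → PeuOmegaJStatement →
  StepLevelStatement → H975.StepStatement`.

`τ₀` is an inertia element at a place over `p` which moves `p^(1/r)` and detects the characters
`G_ℚ → ℤ/r` unramified outside `p` (`exists_tau0_h466`).  For a piece `F / F' = ⟨e⟩` every
`y ∈ Y(F)` has a coordinate `f_y : G → ℤ/r`, `σ y - y ≡ f_y(σ) e mod F'`.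

* piece with trivial action, `r` odd: `f_y` is a character unramified outside `p` (G3, PEU-1);
  `s ≤ r`, and `s = 1` if `F ∩ U₀ ≤ F'`.
* piece of type `ω`, `r` odd: `f_y` is a twisted cocycle, local conditions away from `p`
  (G3, PEU-ω); `F ∩ K ≰ F'` always; `s ≤ r`, and `s = 1` if `F ∩ U₀ ≤ F'`.
* `r = 2`: Kummer classes in `⟨-1, p⟩`; `F ∩ K ≤ F'` forces positivity, `F ∩ U₀ ≤ F'` forces
  even valuation at `p`.
-/

set_option autoImplicit false
set_option linter.unusedSectionVars false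
set_option linter.unusedVariables false
set_option linter.style.haveILetI false

noncomputable section

namespace Fermat.Agent.S15.H466

open ModularCurve Fermat.Agent.S15.H975 Fermat.Agent.S15.H322 Fermat.Agent.S56.H786

/-- **LEVEL**: a division point of a rational point has finite level (from T1, or from the
finite-level lemmas of S29 / H946). -/
def StepLevelStatement : Prop :=
  ∀ (p : ℕ) [NeZero p], p.Prime → ∀ r : ℕ, r.Prime → r ≠ p →
    ∀ y : JZero p, (∀ σ : Gal, σ • (r • y) = r • y) → HasLevel y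

section Basics

variable {p : ℕ} [NeZero p] {r : ℕ} {F' F : AddSubgroup (JZero p)} {e : JZero p}

theorem gsmul_sub_st (σ : Gal) (x y : JZero p) : σ • (x - y) = σ • x - σ • y :=
  smul_sub (A := JZero p) σ x y

theorem gsmul_zero_st (σ : Gal) : σ • (0 : JZero p) = 0 := smul_zero (A := JZero p) σ

theorem gsmul_nsmul_st (σ : Gal) (n : ℕ) (y : JZero p) : σ • (n • y) = n • (σ • y) :=
  map_nsmul (DistribSMul.toAddMonoidHom (JZero p) σ) n y

theorem eis_le_tors_st (S : Set ℕ) : eis p S r ≤ tors p r := fun _ hw => hw.1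

theorem sel_mono_st {F₁ F₂ : AddSubgroup (JZero p)} (h : F₁ ≤ F₂) : sel p r F₁ ≤ sel p r F₂ :=
  fun _ hy => ⟨hy.1, fun σ => h (hy.2 σ)⟩

theorem le_sel_st (hst : IsStable p F) (hFt : F ≤ tors p r) : F ≤ sel p r F := by
  intro f hf
  refine ⟨fun σ => ?_, fun σ => F.sub_mem (hst σ f hf) hf⟩
  have h0 : r • f = 0 := hFt hf
  rw [h0, gsmul_zero_st]

theorem le_sel_of_triv_st (hFt : F ≤ tors p r) (htriv : ∀ σ : Gal, ∀ f ∈ F, σ • f - f ∈ F') :
    F ≤ sel p r F' := by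
  intro f hf
  refine ⟨fun σ => ?_, fun σ => htriv σ f hf⟩
  have h0 : r • f = 0 := hFt hf
  rw [h0, gsmul_zero_st]

/-- Monotonicity of the relative index for divisibility, right argument. -/
theorem relIndex_dvd_of_le_right_st {J : Type*} [AddCommGroup J] (H L L' : AddSubgroup J)
    (hL : L ≤ L') : H.relIndex L ∣ H.relIndex L' := by
  have h1 : (H ⊓ L').relIndex ((H ⊓ L') ⊔ L) * ((H ⊓ L') ⊔ L).relIndex L' =
      (H ⊓ L').relIndex L' :=
    AddSubgroup.relIndex_mul_relIndex _ _ _ le_sup_left (sup_le inf_le_right hL)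
  have h2 : (H ⊓ L').relIndex ((H ⊓ L') ⊔ L) = H.relIndex L := by
    rw [AddSubgroup.relIndex_sup_left, ← AddSubgroup.inf_relIndex_right (H ⊓ L') L,
      inf_assoc, inf_eq_right.2 hL, AddSubgroup.inf_relIndex_right]
  rw [h2, AddSubgroup.inf_relIndex_right] at h1
  exact Dvd.intro _ h1

/-- `g ∣ r`, in particular `g ≠ 0`. -/
theorem fixIndex_dvd_st (hidx : F'.relIndex F = r) : fixIndex p r F' F ∣ r := by
  have := relIndex_dvd_of_le_right_st F' (F ⊓ sel p r F') F inf_le_left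
  rwa [hidx] at this

theorem fixIndex_pos_st (hr : r.Prime) (hidx : F'.relIndex F = r) : 1 ≤ fixIndex p r F' F :=
  Nat.pos_of_dvd_of_pos (fixIndex_dvd_st hidx) hr.pos

/-- `g = r` for a piece with trivial action. -/
theorem fixIndex_eq_of_triv_st (hFt : F ≤ tors p r) (hidx : F'.relIndex F = r)
    (htriv : ∀ σ : Gal, ∀ f ∈ F, σ • f - f ∈ F') : fixIndex p r F' F = r := by
  have h1 : F ⊓ sel p r F' = F := inf_eq_left.mpr (le_sel_of_triv_st hFt htriv)
  unfold fixIndex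
  rw [h1, hidx]

/-- A generator of the piece. -/
theorem exists_gen_st (hr : r.Prime) (hidx : F'.relIndex F = r) :
    ∃ e ∈ F, e ∉ F' ∧ r • e ∈ F' ∧ ∀ w ∈ F, ∃ k : ZMod r, w - k.val • e ∈ F' := by
  haveI : Fact r.Prime := ⟨hr⟩
  haveI : NeZero r := ⟨hr.ne_zero⟩
  have hcard : Nat.card (F ⧸ F'.addSubgroupOf F) = r := by
    rw [← hidx]
    rfl
  have hne : ¬ F ≤ F' := by
    intro h
    have := AddSubgroup.relIndex_eq_one.mpr h
    rw [hidx] at this
    exact hr.one_lt.ne' this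
  obtain ⟨e, heF, he⟩ := SetLike.not_le_iff_exists.mp hne
  have hmk : ∀ w : F, (QuotientAddGroup.mk w : F ⧸ F'.addSubgroupOf F) = 0 ↔
      (w : JZero p) ∈ F' := by
    intro w
    rw [QuotientAddGroup.eq_zero_iff]
    rfl
  have he0 : (QuotientAddGroup.mk (⟨e, heF⟩ : F) : F ⧸ F'.addSubgroupOf F) ≠ 0 :=
    fun h => he ((hmk _).mp h)
  have hre : r • e ∈ F' := by
    have h1 : r • (QuotientAddGroup.mk (⟨e, heF⟩ : F) : F ⧸ F'.addSubgroupOf F) = 0 := by
      rw [← hcard]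
      exact card_nsmul_eq_zero'
    have h2 : (QuotientAddGroup.mk (r • (⟨e, heF⟩ : F)) : F ⧸ F'.addSubgroupOf F) = 0 := h1
    exact (hmk _).mp h2
  refine ⟨e, heF, he, hre, fun w hw => ?_⟩
  have hmem : (QuotientAddGroup.mk (⟨w, hw⟩ : F) : F ⧸ F'.addSubgroupOf F) ∈
      AddSubgroup.zmultiples (QuotientAddGroup.mk (⟨e, heF⟩ : F) : F ⧸ F'.addSubgroupOf F) :=
    mem_zmultiples_of_prime_card hcard he0
  obtain ⟨k, hk⟩ := AddSubgroup.mem_zmultiples_iff.mp hmem
  have h3 : w - k • e ∈ F' := by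
    have h4 : (QuotientAddGroup.mk ((⟨w, hw⟩ : F) - k • (⟨e, heF⟩ : F)) :
        F ⧸ F'.addSubgroupOf F) = 0 := by
      rw [QuotientAddGroup.mk_sub, QuotientAddGroup.mk_zsmul, hk, sub_self]
    exact (hmk _).mp h4
  refine ⟨(k : ZMod r), ?_⟩
  have h5 := val_smul_sub_zsmul_mem hr he hre (k : ZMod r) k rfl
  have h6 : w - (k : ZMod r).val • e = (w - k • e) - ((k : ZMod r).val • e - k • e) := by abel
  rw [h6]
  exact F'.sub_mem h3 h5

/-- Every point of `Y(F)` has a coordinate. -/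
theorem exists_coord_st (hgen : ∀ w ∈ F, ∃ k : ZMod r, w - k.val • e ∈ F') {y : JZero p}
    (hy : y ∈ sel p r F) : ∃ f : Gal → ZMod r, HasCoord r F' e y f :=
  ⟨fun σ => (hgen _ (hy.2 σ)).choose, fun σ => (hgen _ (hy.2 σ)).choose_spec⟩

/-- `r • f ∈ F'` for `f ∈ F`. -/
theorem nsmul_mem_of_gen_st (hre : r • e ∈ F')
    (hgen : ∀ w ∈ F, ∃ k : ZMod r, w - k.val • e ∈ F') {f : JZero p} (hf : f ∈ F) :
    r • f ∈ F' := by
  obtain ⟨k, hk⟩ := hgen f hf
  have h1 : r • f = r • (f - k.val • e) + k.val • (r • e) := by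
    rw [nsmul_sub, smul_comm k.val r e]
    abel
  rw [h1]
  exact F'.add_mem (F'.nsmul_mem hk _) (F'.nsmul_mem hre _)

/-- Triviality of the action on the piece from triviality on the generator. -/
theorem triv_of_gen_st (hst' : IsStable p F')
    (hgen : ∀ w ∈ F, ∃ k : ZMod r, w - k.val • e ∈ F') (hacte : ∀ σ : Gal, σ • e - e ∈ F')
    (σ : Gal) {f : JZero p} (hf : f ∈ F) : σ • f - f ∈ F' := by
  obtain ⟨k, hk⟩ := hgen f hf
  have h1 : σ • f - f = (σ • (f - k.val • e) - (f - k.val • e)) + k.val • (σ • e - e) := by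
    rw [gsmul_sub_st, gsmul_nsmul_st, nsmul_sub]
    abel
  rw [h1]
  exact F'.add_mem (F'.sub_mem (hst' σ _ hk) hk) (F'.nsmul_mem (hacte σ) _)

end Basics

/-! ## Local conditions -/

section Local

variable {p : ℕ} [NeZero p] {r : ℕ} {F' F : AddSubgroup (JZero p)} {e : JZero p}

/-- G3: the coordinate vanishes on inertia at `ℓ ∤ p r`. -/
theorem coord_unr_g3_st (hG3 : G3Statement) (hp : p.Prime) (hr : r.Prime) (he : e ∉ F')
    (hre : r • e ∈ F') {y : JZero p} (hy : y ∈ sel p r F) {f : Gal → ZMod r}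
    (hf : HasCoord r F' e y f) {ℓ : ℕ} (hℓ : ℓ.Prime) (hℓp : ℓ ≠ p) (hℓr : ℓ ≠ r)
    (B : ValuationSubring Qb) (hB : B.LiesOverPrime ℓ) :
    ∀ σ ∈ B.inertiaSubgroupIn ℚ, f σ = 0 := by
  intro σ hσ
  rw [coord_eq_zero_iff_h466 hr he hre hf σ,
    hG3 p hp r hr ℓ hℓ hℓp hℓr B hB σ hσ y (hy.1 σ), sub_self]
  exact F'.zero_mem

/-- Trivial piece, `r` odd: the coordinate is unramified at every `ℓ ≠ p`. -/
theorem unr_ne_p_triv_st (hG3 : G3Statement) (hP1 : Peu1JStatement) (hp : p.Prime)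
    (hr : r.Prime) (hrp : r ≠ p) (hr2 : r ≠ 2) (hle : F' ≤ F) (hFt : F ≤ tors p r)
    (hst' : IsStable p F') (hst : IsStable p F) (hidx : F'.relIndex F = r)
    (htriv : ∀ σ : Gal, ∀ f ∈ F, σ • f - f ∈ F') (he : e ∉ F') (hre : r • e ∈ F')
    {y : JZero p} (hy : y ∈ sel p r F) {f : Gal → ZMod r} (hf : HasCoord r F' e y f)
    {ℓ : ℕ} (hℓ : ℓ.Prime) (hℓp : ℓ ≠ p) :
    ∃ B : ValuationSubring Qb, B.LiesOverPrime ℓ ∧ ∀ σ ∈ B.inertiaSubgroupIn ℚ, f σ = 0 := by
  obtain ⟨B, hB⟩ := Fermat.Agent.S54.exists_valuationSubring_liesOver ℓ hℓ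
  refine ⟨B, hB, ?_⟩
  by_cases hℓr : ℓ = r
  · subst hℓr
    intro σ hσ
    rw [coord_eq_zero_iff_h466 hr he hre hf σ]
    exact hP1 p hp ℓ hr hrp hr2 B hB σ hσ F' F hle hFt hst' hst hidx htriv y hy
  · exact coord_unr_g3_st hG3 hp hr he hre hy hf hℓ hℓp hℓr B hB

/-- Piece of type `ω`: the local conditions at every `ℓ ≠ p`. -/
theorem kumDivAt_ne_p_st (hG3 : G3Statement) (hPω : PeuOmegaJStatement) (hp : p.Prime)
    (hr : r.Prime) (hrp : r ≠ p) (hle : F' ≤ F) (hFt : F ≤ tors p r)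
    (hst' : IsStable p F') (hst : IsStable p F) (hidx : F'.relIndex F = r)
    {ζ : Qb} (hζ : IsPrimitiveRoot ζ r)
    (hω : ∀ (σ : Gal) (k : ℕ), σ ζ = ζ ^ k → ∀ f ∈ F, σ • f - k • f ∈ F')
    (heF : e ∈ F) (he : e ∉ F') (hre : r • e ∈ F')
    {y : JZero p} (hy : y ∈ sel p r F) {f : Gal → ZMod r} (hf : HasCoord r F' e y f)
    {ℓ : ℕ} (hℓ : ℓ.Prime) (hℓp : ℓ ≠ p) : KumDivAt r ζ f ℓ := by
  haveI : NeZero r := ⟨hr.ne_zero⟩
  by_cases hℓr : ℓ = r
  · subst hℓr
    intro β a hβ hβa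
    have ha : a ≠ 0 := by
      rintro rfl
      rw [Rat.cast_zero] at hβa
      exact hβ.1 (pow_eq_zero_iff hr.ne_zero |>.mp hβa)
    refine hPω p hp ℓ hr hrp F' F hle hFt hst' hst hidx ζ hζ hω e heF he y hy a β ha
      (by rw [hβa, eq_ratCast]) ?_
    intro σ m hσm
    have h1 : zp ζ ((m : ℕ) : ZMod ℓ) = zp ζ (f σ) := by
      rw [zp_natCast hζ.pow_eq_one]
      have h := hβ.2 σ
      rw [hσm] at h
      exact mul_right_cancel₀ hβ.1 h
    have h2 : (((m : ℕ) : ℤ) : ZMod ℓ) = f σ := by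
      rw [← zp_injective hζ h1]
      push_cast
      rfl
    have h3 := val_smul_sub_zsmul_mem hr he hre (f σ) (m : ℤ) h2
    have h4 := hf σ
    have h5 : σ • y - y - m • e =
        (σ • y - y - (f σ).val • e) + ((f σ).val • e - ((m : ℕ) : ℤ) • e) := by
      rw [natCast_zsmul]
      abel
    rw [h5]
    exact F'.add_mem h4 h3
  · obtain ⟨B, hB⟩ := Fermat.Agent.S54.exists_valuationSubring_liesOver ℓ hℓ
    exact kumDivAt_of_unram hζ hℓ B hB
      (coord_unr_g3_st hG3 hp hr he hre hy hf hℓ hℓp hℓr B hB)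

end Local

end Fermat.Agent.S15.H466

end
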