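import Fermat.Agent.S15.H466.StepInst

/-!
# Row S15, leaf STEP (helper466): the three cases and the assembly

* `stepBound_triv_odd_st`  : piece with trivial action, `r` odd;
* `stepBound_omega_odd_st` : piece of type `ω`, `r` odd;
* `stepBound_two_st`       : `r = 2`;
* `stepStatement_of_nodes` : `G3 → PEU-1J → PEU-ωJ → LEVEL → H975.StepStatement`.
-/

set_option autoImplicit false
set_option linter.unusedSectionVars false
set_option linter.unusedVariables false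
set_option linter.style.haveILetI false

noncomputable section

namespace Fermat.Agent.S15.H466

open ModularCurve Fermat.Agent.S15.H975 Fermat.Agent.S15.H322 Fermat.Agent.S56.H786

section Cases

variable {p : ℕ} [NeZero p] {r : ℕ} {F' F : AddSubgroup (JZero p)}

/-- The values at `g` of the cocycles of `Y(F)` lie in `F ∩ (g - 1) Y(W_E)`. -/
theorem coc_mem_st {S : Set ℕ} (hF : F ≤ eis p S r) (g : Gal) {y : JZero p}
    (hy : y ∈ sel p r F) : g • y - y ∈ F ⊓ cocImage p S r g :=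
  ⟨hy.2 g, mem_cocImage.mpr ⟨y, sel_mono_st hF hy, rfl⟩⟩

/-- **Case A**: piece with trivial action, `r` odd. -/
theorem stepBound_triv_odd_st (hG3 : G3Statement) (hP1 : Peu1JStatement)
    (hLev : StepLevelStatement) (hp : p.Prime) (hr : r.Prime) (hrp : r ≠ p) (hr2 : r ≠ 2)
    {S : Set ℕ} {τ₀ : Gal}
    (hτ₀T : ∀ f : Gal → ZMod r, IsCharUnrOutside p f → f τ₀ = 0 → ∀ σ, f σ = 0)
    (hF : F ≤ eis p S r) (hle : F' ≤ F) (hst' : IsStable p F') (hst : IsStable p F)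
    (hidx : F'.relIndex F = r) (htriv : ∀ σ : Gal, ∀ f ∈ F, σ • f - f ∈ F') :
    StepBound p r (cocImage p S r complexConjugation) (cocImage p S r τ₀) F' F := by
  obtain ⟨e, heF, he, hre, hgen⟩ := exists_gen_st hr hidx
  have hFt : F ≤ tors p r := hF.trans (eis_le_tors_st S)
  have hstab : ∀ σ : Gal, ∀ x ∈ F', σ • x ∈ F' := hst'
  have hacte : ∀ σ : Gal, σ • e - e ∈ F' := fun σ => htriv σ e heF
  have hH : ∀ w ∈ sel p r F, KumIn F' w → w ∈ sel p r F' ⊔ F :=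
    fun w hw hk => AddSubgroup.mem_sup_left ⟨hw.1, hk⟩
  have hY : ∀ y ∈ sel p r F, ∃ f : Gal → ZMod r, HasCoord r F' e y f ∧ HasLevel y ∧
      ∀ ℓ : ℕ, ℓ.Prime → ℓ ≠ p → ∃ B : ValuationSubring Qb,
        B.LiesOverPrime ℓ ∧ ∀ σ ∈ B.inertiaSubgroupIn ℚ, f σ = 0 := by
    intro y hy
    obtain ⟨f, hf⟩ := exists_coord_st hgen hy
    exact ⟨f, hf, hLev p hp r hr hrp y hy.1, fun ℓ hℓ hℓp =>
      unr_ne_p_triv_st hG3 hP1 hp hr hrp hr2 hle hFt hst' hst hidx htriv he hre hy hf hℓ hℓp⟩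
  obtain ⟨hs0, hsr⟩ := piece_relIndex_le_triv hp hr hrp hstab he hre hacte
    (sel p r F) (sel p r F' ⊔ F) hY hH
  have hg : fixIndex p r F' F = r := fixIndex_eq_of_triv_st hFt hidx htriv
  have hs1 : F ⊓ cocImage p S r τ₀ ≤ F' → selIndex p r F' F = 1 := by
    intro hunr
    apply AddSubgroup.relIndex_eq_one.mpr
    intro y hy
    obtain ⟨f, hf, hlev, hun⟩ := hY y hy
    have hchar := hf.isCharUnrOutside hr hstab he hre hacte hlev hun
    have h0 : f τ₀ = 0 :=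
      (coord_eq_zero_iff_h466 hr he hre hf τ₀).mpr (hunr (coc_mem_st hF τ₀ hy))
    have hall := hτ₀T f hchar h0
    exact hH y hy (fun σ => (coord_eq_zero_iff_h466 hr he hre hf σ).mp (hall σ))
  refine ⟨hs0, ?_, ?_, ?_, ?_⟩
  · intro _ hunr
    rw [hs1 hunr, hg, one_mul]
  · intro _ _
    rw [hg]
    exact hsr
  · intro _ hunr
    rw [hs1 hunr, hg]
    exact hr.one_lt.le
  · intro _ _
    rw [hg]
    exact hsr.trans (Nat.le_mul_self r)

/-- **Case B**: piece of type `ω`, `r` odd. -/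
theorem stepBound_omega_odd_st (hG3 : G3Statement) (hPω : PeuOmegaJStatement)
    (hLev : StepLevelStatement) (hp : p.Prime) (hr : r.Prime) (hrp : r ≠ p) (hr2 : r ≠ 2)
    {S : Set ℕ} (A : ValuationSubring Qb) (hA : A.LiesOverPrime p) {π : Qb}
    (hπ : π ^ r = (p : Qb)) {τ₀ : Gal} (hτ₀ : τ₀ ∈ A.inertiaSubgroupIn ℚ) (hτ₀π : τ₀ π ≠ π)
    (hF : F ≤ eis p S r) (hle : F' ≤ F) (hst' : IsStable p F') (hst : IsStable p F)
    (hidx : F'.relIndex F = r) {ζ : Qb} (hζ : IsPrimitiveRoot ζ r)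
    (hω : ∀ (σ : Gal) (k : ℕ), σ ζ = ζ ^ k → ∀ f ∈ F, σ • f - k • f ∈ F') :
    StepBound p r (cocImage p S r complexConjugation) (cocImage p S r τ₀) F' F := by
  haveI : NeZero r := ⟨hr.ne_zero⟩
  obtain ⟨e, heF, he, hre, hgen⟩ := exists_gen_st hr hidx
  have hFt : F ≤ tors p r := hF.trans (eis_le_tors_st S)
  have hstab : ∀ σ : Gal, ∀ x ∈ F', σ • x ∈ F' := hst'
  have hactω : ∀ σ : Gal, ∀ a : ℕ, Fermat.Agent.S56.IsCycExp r σ a → σ • e - a • e ∈ F' :=
    fun σ a ha => hω σ a (ha ζ hζ.pow_eq_one) e heF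
  have hH : ∀ w ∈ sel p r F, KumIn F' w → w ∈ sel p r F' ⊔ F :=
    fun w hw hk => AddSubgroup.mem_sup_left ⟨hw.1, hk⟩
  have heY : e ∈ sel p r F := le_sel_st hst hFt heF
  have heH : e ∈ sel p r F' ⊔ F := AddSubgroup.mem_sup_right heF
  have hY : ∀ y ∈ sel p r F, ∃ f : Gal → ZMod r, HasCoord r F' e y f ∧ HasLevel y ∧
      ∀ ℓ : ℕ, ℓ.Prime → ℓ ≠ p → KumDivAt r ζ f ℓ := by
    intro y hy
    obtain ⟨f, hf⟩ := exists_coord_st hgen hy
    exact ⟨f, hf, hLev p hp r hr hrp y hy.1, fun ℓ hℓ hℓp =>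
      kumDivAt_ne_p_st hG3 hPω hp hr hrp hle hFt hst' hst hidx hζ hω heF he hre hy hf hℓ hℓp⟩
  obtain ⟨hs0, hsr⟩ := piece_relIndex_le_tw hp hr hr2 hζ hstab he hre hactω
    (sel p r F) (sel p r F' ⊔ F) heY heH hY hH
  have hg1 : 1 ≤ fixIndex p r F' F := fixIndex_pos_st hr hidx
  -- the piece is never étale at the real place
  have hnet : ¬ F ⊓ cocImage p S r complexConjugation ≤ F' := by
    intro het
    have h1 : complexConjugation • e - e ∈ F' := het (coc_mem_st hF complexConjugation heY)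
    have hcc : complexConjugation ζ = ζ ^ (r - 1) := by
      have h2 : complexConjugation ζ * ζ = 1 := by
        have h3 : complexConjugation ζ = ζ⁻¹ := by
          apply complexEmbedding.toRingHom.injective
          show complexEmbedding (complexConjugation ζ) = complexEmbedding ζ⁻¹
          rw [complexEmbedding_complexConjugation, map_inv₀]
          have h4 : (complexEmbedding ζ) ^ r = 1 := by rw [← map_pow, hζ.pow_eq_one, map_one]
          exact (Complex.inv_eq_conj (Complex.norm_eq_one_of_pow_eq_one h4 hr.ne_zero)).symm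
        rw [h3, inv_mul_cancel₀ (hζ.ne_zero hr.ne_zero)]
      have h5 : ζ ^ (r - 1) * ζ = 1 := by
        rw [← pow_succ, Nat.sub_add_cancel hr.one_lt.le, hζ.pow_eq_one]
      exact mul_right_cancel₀ (hζ.ne_zero hr.ne_zero) (h2.trans h5.symm)
    have h6 : complexConjugation • e - (r - 1) • e ∈ F' := hω complexConjugation (r - 1) hcc e heF
    have h7 : ((r : ℤ) - 2) • e ∈ F' := by
      have h8 := F'.sub_mem h6 h1
      have h9 : complexConjugation • e - (r - 1) • e - (complexConjugation • e - e) =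
          -(((r : ℤ) - 2) • e) := by
        have h10 : ((r - 1 : ℕ) : ℤ) = (r : ℤ) - 1 := by
          rw [Nat.cast_sub hr.one_lt.le, Nat.cast_one]
        rw [← natCast_zsmul, h10]
        generalize complexConjugation • e = E1
        module
      rw [h9] at h8
      exact (F'.neg_mem_iff).mp h8
    rw [zsmul_mem_iff hr he hre] at h7
    push_cast at h7
    rw [CharP.cast_eq_zero, zero_sub, neg_eq_zero] at h7
    have h11 : ((2 : ℕ) : ZMod r) = 0 := by exact_mod_cast h7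
    rw [ZMod.natCast_eq_zero_iff] at h11
    exact hr2 ((Nat.prime_dvd_prime_iff_eq hr Nat.prime_two).mp h11)
  have hs1 : F ⊓ cocImage p S r τ₀ ≤ F' → selIndex p r F' F = 1 := by
    intro hunr
    apply AddSubgroup.relIndex_eq_one.mpr
    refine piece_le_tw hr hr2 hζ hstab he hre hactω (sel p r F) (sel p r F' ⊔ F) heY heH ?_ hH
    intro y hy
    obtain ⟨f, hf, hlev, hdiv⟩ := hY y hy
    refine ⟨f, hf, hlev, fun ℓ hℓ => ?_⟩
    by_cases hℓp : ℓ = p
    · subst hℓp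
      exact kumDivAt_of_tau0_h466 hℓ hr hrp A hA hπ hτ₀ hτ₀π
        ((coord_eq_zero_iff_h466 hr he hre hf τ₀).mpr (hunr (coc_mem_st hF τ₀ hy)))
    · exact hdiv ℓ hℓ hℓp
  refine ⟨hs0, ?_, ?_, ?_, ?_⟩
  · intro het _
    exact absurd het hnet
  · intro het _
    exact absurd het hnet
  · intro _ hunr
    rw [hs1 hunr]
    exact hg1
  · intro _ _
    exact hsr.trans (Nat.le_mul_of_pos_right r hg1)

/-- For `r = 2` the two types of pieces coincide. -/
theorem two_data_st (hidx : F'.relIndex F = 2)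
    (hact : (∀ σ : Gal, ∀ f ∈ F, σ • f - f ∈ F') ∨ ∃ ζ : Qb, IsPrimitiveRoot ζ 2 ∧
        ∀ (σ : Gal) (k : ℕ), σ ζ = ζ ^ k → ∀ f ∈ F, σ • f - k • f ∈ F') :
    (∀ σ : Gal, ∀ f ∈ F, σ • f - f ∈ F') ∧ ∃ ζ : Qb, IsPrimitiveRoot ζ 2 ∧
        ∀ (σ : Gal) (k : ℕ), σ ζ = ζ ^ k → ∀ f ∈ F, σ • f - k • f ∈ F' := by
  obtain ⟨e, heF, he, hre, hgen⟩ := exists_gen_st Nat.prime_two hidx
  rcases hact with htriv | ⟨ζ, hζ, hω⟩
  · refine ⟨htriv, -1, IsPrimitiveRoot.neg_one 0 (by norm_num), fun σ k hk f hf => ?_⟩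
    have hne : (-1 : Qb) ≠ 1 := fun h => two_ne_zero (α := Qb) (by linear_combination -h)
    have hodd : Odd k := by
      have h1 : (-1 : Qb) ^ k = -1 := by
        rw [← hk, map_neg, map_one]
      exact (neg_one_pow_eq_neg_one_iff_odd hne).mp h1
    obtain ⟨j, rfl⟩ := hodd
    have h2 : σ • f - (2 * j + 1) • f = (σ • f - f) - j • (2 • f) := by
      rw [add_smul, one_smul, mul_comm, mul_smul]
      abel
    rw [h2]
    exact F'.sub_mem (htriv σ f hf) (F'.nsmul_mem (nsmul_mem_of_gen_st hre hgen hf) j)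
  · refine ⟨fun σ f hf => ?_, ζ, hζ, hω⟩
    have h1 : σ ζ = ζ ^ 1 := by
      rw [pow_one, hζ.eq_neg_one_of_two_right, map_neg, map_one]
    have := hω σ 1 h1 f hf
    rwa [one_smul] at this

/-- **Case C**: `r = 2`. -/
theorem stepBound_two_st (hG3 : G3Statement) (hPω : PeuOmegaJStatement)
    (hLev : StepLevelStatement) (hp : p.Prime) (h2p : 2 ≠ p)
    {S : Set ℕ} (A : ValuationSubring Qb) (hA : A.LiesOverPrime p) {π : Qb}
    (hπ : π ^ 2 = (p : Qb)) {τ₀ : Gal} (hτ₀ : τ₀ ∈ A.inertiaSubgroupIn ℚ) (hτ₀π : τ₀ π ≠ π)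
    {F' F : AddSubgroup (JZero p)}
    (hF : F ≤ eis p S 2) (hle : F' ≤ F) (hst' : IsStable p F') (hst : IsStable p F)
    (hidx : F'.relIndex F = 2)
    (hact : (∀ σ : Gal, ∀ f ∈ F, σ • f - f ∈ F') ∨ ∃ ζ : Qb, IsPrimitiveRoot ζ 2 ∧
        ∀ (σ : Gal) (k : ℕ), σ ζ = ζ ^ k → ∀ f ∈ F, σ • f - k • f ∈ F') :
    StepBound p 2 (cocImage p S 2 complexConjugation) (cocImage p S 2 τ₀) F' F := by
  obtain ⟨htriv, ζ, hζ, hω⟩ := two_data_st hidx hact
  obtain ⟨e, heF, he, hre, hgen⟩ := exists_gen_st Nat.prime_two hidx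
  have hr := Nat.prime_two
  have hFt : F ≤ tors p 2 := hF.trans (eis_le_tors_st S)
  have hstab : ∀ σ : Gal, ∀ x ∈ F', σ • x ∈ F' := hst'
  have hactω : ∀ σ : Gal, ∀ a : ℕ, Fermat.Agent.S56.IsCycExp 2 σ a → σ • e - a • e ∈ F' :=
    fun σ a ha => hω σ a (ha ζ hζ.pow_eq_one) e heF
  have hH : ∀ w ∈ sel p 2 F, KumIn F' w → w ∈ sel p 2 F' ⊔ F :=
    fun w hw hk => AddSubgroup.mem_sup_left ⟨hw.1, hk⟩
  have hY : ∀ y ∈ sel p 2 F, ∃ f : Gal → ZMod 2, HasCoord 2 F' e y f ∧ HasLevel y ∧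
      ∀ ℓ : ℕ, ℓ.Prime → ℓ ≠ p → KumDivAt 2 ζ f ℓ := by
    intro y hy
    obtain ⟨f, hf⟩ := exists_coord_st hgen hy
    exact ⟨f, hf, hLev p hp 2 hr h2p y hy.1, fun ℓ hℓ hℓp =>
      kumDivAt_ne_p_st hG3 hPω hp hr h2p hle hFt hst' hst hidx hζ hω heF he hre hy hf hℓ hℓp⟩
  have hg : fixIndex p 2 F' F = 2 := fixIndex_eq_of_triv_st hFt hidx htriv
  have hpos : F ⊓ cocImage p S 2 complexConjugation ≤ F' → ∀ y ∈ sel p 2 F,
      ∀ f : Gal → ZMod 2, HasCoord 2 F' e y f → f complexConjugation = 0 :=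
    fun het y hy f hf =>
      (coord_eq_zero_iff_h466 hr he hre hf _).mpr (het (coc_mem_st hF _ hy))
  have hunrp : F ⊓ cocImage p S 2 τ₀ ≤ F' → ∀ y ∈ sel p 2 F,
      ∀ f : Gal → ZMod 2, HasCoord 2 F' e y f → KumDivAt 2 ζ f p :=
    fun hunr y hy f hf => kumDivAt_of_tau0_h466 hp hr h2p A hA hπ hτ₀ hτ₀π
      ((coord_eq_zero_iff_h466 hr he hre hf τ₀).mpr (hunr (coc_mem_st hF τ₀ hy)))
  -- (1) positive and unramified at `p`: `s = 1`
  have c1 : F ⊓ cocImage p S 2 complexConjugation ≤ F' → F ⊓ cocImage p S 2 τ₀ ≤ F' →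
      selIndex p 2 F' F = 1 := by
    intro het hunr
    apply AddSubgroup.relIndex_eq_one.mpr
    intro y hy
    obtain ⟨f, hf, hlev, hdiv⟩ := hY y hy
    refine hH y hy (piece_two_triv_h466 hζ hstab he hre hactω hf hlev (hpos het y hy f hf)
      (fun ℓ hℓ => ?_))
    by_cases hℓp : ℓ = p
    · subst hℓp
      exact hunrp hunr y hy f hf
    · exact hdiv ℓ hℓ hℓp
  -- (2) positive: `s ≤ 2`
  have c2 : F ⊓ cocImage p S 2 complexConjugation ≤ F' → selIndex p 2 F' F ≤ 2 := by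
    intro het
    refine (relIndex_le_of_dichotomy (sel p 2 F' ⊔ F) (sel p 2 F) two_pos
      (fun y₁ hy₁ y₂ hy₂ => ?_)).2
    obtain ⟨f₁, hf₁, hl₁, hd₁⟩ := hY y₁ hy₁
    obtain ⟨f₂, hf₂, hl₂, hd₂⟩ := hY y₂ hy₂
    rcases piece_two_pos_h466 hp hζ hstab he hre hactω hf₁ hf₂ hl₁ hl₂
      (hpos het y₁ hy₁ f₁ hf₁) (hpos het y₂ hy₂ f₂ hf₂) hd₁ hd₂ with h | ⟨m, hm, h⟩
    · exact Or.inl (hH _ hy₁ h)
    · exact Or.inr ⟨m, hm, hH _ ((sel p 2 F).sub_mem hy₂ ((sel p 2 F).nsmul_mem hy₁ m)) h⟩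
  -- (3) unramified at `p`: `s ≤ 2`
  have c3 : F ⊓ cocImage p S 2 τ₀ ≤ F' → selIndex p 2 F' F ≤ 2 := by
    intro hunr
    refine (relIndex_le_of_dichotomy (sel p 2 F' ⊔ F) (sel p 2 F) two_pos
      (fun y₁ hy₁ y₂ hy₂ => ?_)).2
    obtain ⟨f₁, hf₁, hl₁, hd₁⟩ := hY y₁ hy₁
    obtain ⟨f₂, hf₂, hl₂, hd₂⟩ := hY y₂ hy₂
    have hall : ∀ (y : JZero p) (hy : y ∈ sel p 2 F) (f : Gal → ZMod 2),
        HasCoord 2 F' e y f → (∀ ℓ : ℕ, ℓ.Prime → ℓ ≠ p → KumDivAt 2 ζ f ℓ) →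
        ∀ ℓ : ℕ, ℓ.Prime → KumDivAt 2 ζ f ℓ := by
      intro y hy f hf hd ℓ hℓ
      by_cases hℓp : ℓ = p
      · subst hℓp
        exact hunrp hunr y hy f hf
      · exact hd ℓ hℓ hℓp
    rcases piece_two_unr_h466 hζ hstab he hre hactω hf₁ hf₂ hl₁ hl₂
      (hall y₁ hy₁ f₁ hf₁ hd₁) (hall y₂ hy₂ f₂ hf₂ hd₂) with h | ⟨m, hm, h⟩
    · exact Or.inl (hH _ hy₁ h)
    · exact Or.inr ⟨m, hm, hH _ ((sel p 2 F).sub_mem hy₂ ((sel p 2 F).nsmul_mem hy₁ m)) h⟩
  -- (4) in general: `s ≤ 4`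
  have c4 : selIndex p 2 F' F ≠ 0 ∧ selIndex p 2 F' F ≤ 2 * 2 := by
    have hP : ∀ y : JZero p,
        y ∈ F'.comap (Fermat.Agent.S15.H208.tauSub complexConjugation) ↔
          complexConjugation • y - y ∈ F' := fun y => Iff.rfl
    have hZ : ∀ x : ZMod 2, x ≠ 0 → x = 1 := by decide
    refine relIndex_le_sq_h466 (sel p 2 F' ⊔ F)
      (F'.comap (Fermat.Agent.S15.H208.tauSub complexConjugation)) (sel p 2 F) two_pos ?_ ?_
    · intro y₁ hy₁ y₂ hy₂
      obtain ⟨f₁, hf₁⟩ := exists_coord_st hgen hy₁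
      obtain ⟨f₂, hf₂⟩ := exists_coord_st hgen hy₂
      by_cases h1 : complexConjugation • y₁ - y₁ ∈ F'
      · exact Or.inl ((hP _).mpr h1)
      · right
        by_cases h2 : complexConjugation • y₂ - y₂ ∈ F'
        · refine ⟨0, two_pos, ?_⟩
          rw [zero_nsmul, sub_zero]
          exact (hP _).mpr h2
        · refine ⟨1, one_lt_two, ?_⟩
          rw [one_nsmul, hP]
          have hc1 : f₁ complexConjugation = 1 :=
            hZ _ (fun h => h1 ((coord_eq_zero_iff_h466 hr he hre hf₁ _).mp h))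
          have hc2 : f₂ complexConjugation = 1 :=
            hZ _ (fun h => h2 ((coord_eq_zero_iff_h466 hr he hre hf₂ _).mp h))
          have h3 := F'.sub_mem (hf₂ complexConjugation) (hf₁ complexConjugation)
          rw [hc1, hc2] at h3
          have h4 : complexConjugation • (y₂ - y₁) - (y₂ - y₁) =
              complexConjugation • y₂ - y₂ - (1 : ZMod 2).val • e -
                (complexConjugation • y₁ - y₁ - (1 : ZMod 2).val • e) := by
            rw [gsmul_sub_st]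
            abel
          rw [h4]
          exact h3
    · intro y₁ hy₁ y₂ hy₂
      obtain ⟨f₁, hf₁, hl₁, hd₁⟩ := hY y₁ hy₁.2
      obtain ⟨f₂, hf₂, hl₂, hd₂⟩ := hY y₂ hy₂.2
      have hc₁ : f₁ complexConjugation = 0 :=
        (coord_eq_zero_iff_h466 hr he hre hf₁ _).mpr ((hP _).mp hy₁.1)
      have hc₂ : f₂ complexConjugation = 0 :=
        (coord_eq_zero_iff_h466 hr he hre hf₂ _).mpr ((hP _).mp hy₂.1)
      rcases piece_two_pos_h466 hp hζ hstab he hre hactω hf₁ hf₂ hl₁ hl₂ hc₁ hc₂ hd₁ hd₂ with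
        h | ⟨m, hm, h⟩
      · exact Or.inl (hH _ hy₁.2 h)
      · exact Or.inr ⟨m, hm,
          hH _ ((sel p 2 F).sub_mem hy₂.2 ((sel p 2 F).nsmul_mem hy₁.2 m)) h⟩
  refine ⟨c4.1, ?_, ?_, ?_, ?_⟩
  · intro het hunr
    rw [c1 het hunr, hg, one_mul]
  · intro het _
    rw [hg]
    exact c2 het
  · intro _ hunr
    rw [hg]
    exact c3 hunr
  · intro _ _
    rw [hg]
    exact c4.2

end Cases

/-- **STEP from its nodes**: G3, PEU-1 on `J`, PEU-ω on `J`, finite level of division points. -/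
theorem stepStatement_of_nodes (hG3 : G3Statement) (hP1 : Peu1JStatement)
    (hPω : PeuOmegaJStatement) (hLev : StepLevelStatement) : StepStatement := by
  intro p _ hp S r hr hrp
  have hrp' : r ≠ p := by
    have h0 : 0 < p - 1 := Nat.sub_pos_of_lt hp.one_lt
    have h1 : r ≤ p - 1 := Nat.le_of_dvd h0 hrp
    omega
  obtain ⟨A, hA⟩ := Fermat.Agent.S54.exists_valuationSubring_liesOver p hp
  obtain ⟨π, hπ⟩ := IsAlgClosed.exists_pow_nat_eq (p : Qb) hr.pos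
  obtain ⟨τ₀, hτ₀, hτ₀π, hτ₀T⟩ := exists_tau0_h466 hp hr hrp' A hA hπ
  refine ⟨A, hA, τ₀, hτ₀, fun F' F hF hpiece => ?_⟩
  obtain ⟨hle, hst', hst, hidx, hact⟩ := hpiece
  by_cases hr2 : r = 2
  · subst hr2
    exact stepBound_two_st hG3 hPω hLev hp hrp' A hA hπ hτ₀ hτ₀π hF hle hst' hst hidx hact
  · rcases hact with htriv | ⟨ζ, hζ, hω⟩
    · exact stepBound_triv_odd_st hG3 hP1 hLev hp hr hrp' hr2 hτ₀T hF hle hst' hst hidx htriv
    · exact stepBound_omega_odd_st hG3 hPω hLev hp hr hrp' hr2 A hA hπ hτ₀ hτ₀π hF hle hst' hst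
        hidx hζ hω

/-- **LEVEL from T1**: the Hopf-model extension `E_x` is a continuous Galois module containing the
class of `y`, so `y` has finite level. -/
theorem stepLevel_of_t1 (hT1 : T1Statement) : StepLevelStatement := by
  intro p _ hp r hr hrp y hy
  obtain ⟨M, _, _, act, ι, y', hcont, -, hinj, -, -, -, -, hy'⟩ := hT1 p hp r hr hrp y hy
  obtain ⟨L, hL, hfix⟩ := hcont.cont y'
  refine ⟨L, hL, fun τ hτ => ?_⟩
  have hw : τ • y - y ∈ tors p r := by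
    show r • (τ • y - y) = 0
    rw [nsmul_sub, ← gsmul_nsmul_st, hy τ, sub_self]
  have h1 : act τ y' = y' + ι ⟨τ • y - y, hw⟩ := hy' τ ⟨τ • y - y, hw⟩ rfl
  rw [hfix τ hτ] at h1
  have h2 : ι ⟨τ • y - y, hw⟩ = ι 0 := by
    rw [map_zero]
    exact (left_eq_add.mp h1)
  have h3 := congrArg Subtype.val (hinj h2)
  exact sub_eq_zero.mp h3

/-- **STEP from T1** (LEVEL discharged). -/
theorem stepStatement_of_t1 (hG3 : G3Statement) (hP1 : Peu1JStatement)
    (hPω : PeuOmegaJStatement) (hT1 : T1Statement) : StepStatement :=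
  stepStatement_of_nodes hG3 hP1 hPω (stepLevel_of_t1 hT1)

end Fermat.Agent.S15.H466

end
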